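import Fermat.Agent.DimFormula.Infinity
import Fermat.Agent.EichlerShimura.Cocycle

/-!
# Orbit counts from forms

The numbers of orbits of `T`, `S`, `S * T` on the cosets, read off from forms on `Γ₀(N)`: the
constant-term projection has rank the number of cusps, and the weights of a pointwise basis are
counted modulo `4` and modulo `6` by the values at the elliptic points.
-/

set_option autoImplicit false

noncomputable section

open UpperHalfPlane hiding I
open Complex CongruenceSubgroup Fermat.Agent.EichlerShimura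
open scoped MatrixGroups ModularForm

namespace Fermat.Agent.DimFormula

variable {N : ℕ} [NeZero N]

omit [NeZero N] in
theorem fixedProj_mem_fixedFun (v : Cosets N → ℂ) :
    fixedProj N v ∈ fixedFun N ModularGroup.T := by
  refine mem_fixedFun.mpr fun x => ?_
  show (N : ℂ)⁻¹ * _ = (N : ℂ)⁻¹ * _
  congr 1
  set g : ℕ → ℂ := fun m => v (ModularGroup.T ^ (-(m : ℤ)) • x) with hg
  have h1 : ∀ m : ℕ, v (ModularGroup.T ^ (-(m : ℤ)) • ModularGroup.T⁻¹ • x) = g (m + 1) := by
    intro m
    rw [hg, smul_smul, ← zpow_sub_one]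
    congr 2
    push_cast
    ring_nf
  have h2 : g N = g 0 := by
    have : ModularGroup.T ^ (-(N : ℤ)) • x = x := by
      have := T_zpow_mul_smul (N := N) (-1) x
      simpa using this
    simp only [hg]
    rw [this]
    simp
  have := Finset.sum_range_succ' g N
  rw [Finset.sum_range_succ, h2] at this
  rw [Finset.sum_congr rfl fun m _ => h1 m]
  exact (add_right_cancel this).symm

theorem fixedProj_of_mem {v : Cosets N → ℂ} (hv : v ∈ fixedFun N ModularGroup.T) :
    fixedProj N v = v := by
  funext x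
  show (N : ℂ)⁻¹ * _ = _
  rw [Finset.sum_congr rfl fun m _ => fixedFun_smul hv _ (Subgroup.zpow_mem_zpowers _ _) x,
    Finset.sum_const, Finset.card_range, nsmul_eq_mul, ← mul_assoc,
    inv_mul_cancel₀ (by exact_mod_cast NeZero.ne N), one_mul]

theorem range_fixedProj : LinearMap.range (fixedProj N) = fixedFun N ModularGroup.T := by
  refine le_antisymm ?_ fun v hv => ⟨v, fixedProj_of_mem hv⟩
  rintro _ ⟨v, rfl⟩
  exact fixedProj_mem_fixedFun v

/-- The rank of `fixedProj` is the number of orbits of `T`. -/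
theorem finrank_range_fixedProj (N : ℕ) [NeZero N] :
    Module.finrank ℂ (LinearMap.range (fixedProj N)) = numOrbits N ModularGroup.T := by
  rw [range_fixedProj, finrank_fixedFun]

/-- A diagonal operator fixes as much as its multiplicity of the eigenvalue one. -/
theorem finrank_ker_sub_id_of_diag {ι V : Type*} [Fintype ι] [AddCommGroup V] [Module ℂ V]
    (b : Module.Basis ι ℂ V) (f : V →ₗ[ℂ] V) (c : ι → ℂ) (hf : ∀ i, f (b i) = c i • b i)
    [DecidablePred fun i => c i = 1] :
    Module.finrank ℂ (LinearMap.ker (f - LinearMap.id))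
      = (Finset.univ.filter fun i => c i = 1).card := by
  have hker : LinearMap.ker (f - LinearMap.id)
      = Submodule.span ℂ (Set.range fun i : {i // c i = 1} => b i) := by
    refine le_antisymm (fun v hv => ?_) (Submodule.span_le.mpr ?_)
    · have hv' : f v = v := sub_eq_zero.mp (LinearMap.mem_ker.mp hv)
      have h0 : ∑ i, (b.repr v i * c i - b.repr v i) • b i = 0 := by
        simp only [sub_smul, Finset.sum_sub_distrib, mul_smul, ← hf, ← map_smul, ← map_sum,
          b.sum_repr, hv', sub_self]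
      have h1 := Fintype.linearIndependent_iff.mp b.linearIndependent _ h0
      rw [← b.sum_repr v]
      refine Submodule.sum_mem _ fun i _ => ?_
      by_cases hi : c i = 1
      · exact Submodule.smul_mem _ _ (Submodule.subset_span ⟨⟨i, hi⟩, rfl⟩)
      · have : b.repr v i = 0 := by
          have h2 := h1 i
          rw [show b.repr v i * c i - b.repr v i = b.repr v i * (c i - 1) by ring] at h2
          exact (mul_eq_zero.mp h2).resolve_right (sub_ne_zero.mpr hi)
        rw [this, zero_smul]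
        exact zero_mem _
    · rintro _ ⟨⟨i, hi⟩, rfl⟩
      simp [hf, hi]
  rw [hker, finrank_span_eq_card (b := fun i : {i // c i = 1} => b i)
    (b.linearIndependent.comp _ Subtype.val_injective), Fintype.card_subtype]

/-- Counting the weights of a pointwise basis by an elliptic element. -/
theorem card_filter_eigenvalue {ι : Type} [Fintype ι] (wt : ι → ℤ) (F : ι → Cosets N → ℍ → ℂ)
    (hF : ∀ j, F j ∈ formW N (wt j)) (g : SL(2, ℤ)) (z : ℍ) (hz : g • z = z) (w : ℂ)
    (hw : denom g z = w) (hli : LinearIndependent ℂ fun j x => F j x z)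
    (hspan : Submodule.span ℂ (Set.range fun j x => F j x z) = ⊤)
    (p : ι → Prop) [DecidablePred p] (hp : ∀ j, w ^ (-wt j) = 1 ↔ p j) :
    (Finset.univ.filter p).card = numOrbits N g := by
  classical
  let b := Module.Basis.mk hli hspan.ge
  rw [← finrank_fixedFun, fixedFun,
    finrank_ker_sub_id_of_diag b (cosetRep N g) (fun j => w ^ (-wt j))]
  · exact congrArg Finset.card (Finset.filter_congr fun j _ => (hp j).symm)
  · intro j
    simp only [b, Module.Basis.mk_apply]
    funext x
    rw [cosetRep_apply, Pi.smul_apply, smul_eq_mul, ← apply_smul_of_mem (hF j) g x z, hz, hw,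
      mul_comm]

theorem I_zpow_eq_one_iff {k : ℤ} (hk : Even k) : Complex.I ^ (-k) = 1 ↔ (4 : ℤ) ∣ k := by
  obtain ⟨r, rfl⟩ := hk
  rw [show -(r + r) = 2 * (-r) by ring, zpow_mul, zpow_ofNat, I_sq]
  rcases Int.even_or_odd r with hr | hr
  · rw [hr.neg.neg_one_zpow]
    obtain ⟨m, rfl⟩ := hr
    exact ⟨fun _ => ⟨m, by ring⟩, fun _ => rfl⟩
  · rw [hr.neg.neg_one_zpow]
    obtain ⟨m, rfl⟩ := hr
    refine ⟨fun h => absurd h (by norm_num), fun h => absurd h ?_⟩
    omega

/-- The weights divisible by `4` are as many as the orbits of `S`. -/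
theorem card_weight_mod_four {N : ℕ} [NeZero N] {ι : Type} [Fintype ι] (wt : ι → ℤ)
    (F : ι → Cosets N → ℍ → ℂ) (hF : ∀ j, F j ∈ formW N (wt j)) (heven : ∀ j, Even (wt j))
    (hli : ∀ z : ℍ, LinearIndependent ℂ fun j x => F j x z)
    (hspan : ∀ z : ℍ, Submodule.span ℂ (Set.range fun j x => F j x z) = ⊤) :
    (Finset.univ.filter fun j => (4 : ℤ) ∣ wt j).card = numOrbits N ModularGroup.S := by
  refine card_filter_eigenvalue wt F hF ModularGroup.S UpperHalfPlane.I ?_ Complex.I ?_ (hli _)
    (hspan _) _ fun j => I_zpow_eq_one_iff (heven j)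
  · rw [modular_S_smul]
    ext
    simp
  · simp [denom, ModularGroup.coe_S]

/-- The elliptic point of order three, `(-1 + √3 i) / 2`. -/
def rhoPoint : ℍ :=
  ⟨(-1 / 2 : ℂ) + (Real.sqrt 3 / 2 : ℝ) * Complex.I, by simp⟩

theorem rhoPoint_sq : (rhoPoint : ℂ) ^ 2 + rhoPoint + 1 = 0 := by
  have h3 : ((Real.sqrt 3 : ℝ) : ℂ) ^ 2 = 3 := by
    exact_mod_cast Real.sq_sqrt (by norm_num : (0 : ℝ) ≤ 3)
  simp only [rhoPoint, UpperHalfPlane.coe_mk]
  push_cast
  linear_combination (((Real.sqrt 3 : ℝ) : ℂ) ^ 2 / 4) * Complex.I_sq - h3 / 4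

theorem rho_zpow_eq_one_iff {k : ℤ} (hk : Even k) :
    ((rhoPoint : ℂ) + 1) ^ (-k) = 1 ↔ (6 : ℤ) ∣ k := by
  set w : ℂ := (rhoPoint : ℂ) + 1 with hw
  have him : 0 < w.im := by simp [hw, rhoPoint.im_pos]
  have h3 : w ^ 3 = -1 := by
    rw [hw]; linear_combination ((rhoPoint : ℂ) + 2) * rhoPoint_sq
  have h6 : w ^ (6 : ℤ) = 1 := by
    rw [zpow_ofNat, show (6 : ℕ) = 3 * 2 from rfl, pow_mul, h3]; norm_num
  have hw0 : w ≠ 0 := fun h => by rw [h] at him; simp at him
  obtain ⟨q, r, hr, hkr⟩ : ∃ q r : ℤ, (r = 0 ∨ r = 2 ∨ r = 4) ∧ -k = 6 * q + r :=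
    ⟨-k / 6, -k % 6, by obtain ⟨m, rfl⟩ := hk; omega, (Int.mul_ediv_add_emod (-k) 6).symm⟩
  rw [hkr, zpow_add₀ hw0, zpow_mul, h6, one_zpow, one_mul]
  have h2 : w ^ 2 = w - 1 := by rw [hw]; linear_combination rhoPoint_sq
  rcases hr with rfl | rfl | rfl
  · simp only [zpow_zero, true_iff]
    exact ⟨-q, by linarith⟩
  · refine ⟨fun h => ?_, fun h => by omega⟩
    rw [zpow_ofNat, h2] at h
    have := congrArg Complex.im h
    simp at this
    linarith
  · refine ⟨fun h => ?_, fun h => by omega⟩
    rw [zpow_ofNat, show (4 : ℕ) = 3 + 1 from rfl, pow_succ, h3] at h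
    have := congrArg Complex.im h
    simp at this
    linarith

/-- The weights divisible by `6` are as many as the orbits of `S * T`. -/
theorem card_weight_mod_six {N : ℕ} [NeZero N] {ι : Type} [Fintype ι] (wt : ι → ℤ)
    (F : ι → Cosets N → ℍ → ℂ) (hF : ∀ j, F j ∈ formW N (wt j)) (heven : ∀ j, Even (wt j))
    (hli : ∀ z : ℍ, LinearIndependent ℂ fun j x => F j x z)
    (hspan : ∀ z : ℍ, Submodule.span ℂ (Set.range fun j x => F j x z) = ⊤) :
    (Finset.univ.filter fun j => (6 : ℤ) ∣ wt j).card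
      = numOrbits N (ModularGroup.S * ModularGroup.T) := by
  refine card_filter_eigenvalue wt F hF _ rhoPoint ?_ ((rhoPoint : ℂ) + 1) ?_ (hli _)
    (hspan _) _ fun j => rho_zpow_eq_one_iff (heven j)
  · rw [mul_smul, modular_T_smul, modular_S_smul]
    apply UpperHalfPlane.ext
    simp only [coe_vadd, ofReal_one]
    refine inv_eq_of_mul_eq_one_left ?_
    linear_combination -rhoPoint_sq
  · simp [denom, ModularGroup.coe_S, ModularGroup.coe_T, Matrix.mul_apply, Fin.sum_univ_two]

end Fermat.Agent.DimFormula
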