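import Fermat.Agent.DimFormula.Dual
import Fermat.Agent.DimFormula.Orbits

/-!
# The dimension of `S₂(Γ₀(N))`

The dimension is expressed by the numbers of orbits of `T`, `S` and `S * T` on the cosets.
-/

set_option autoImplicit false

noncomputable section

open UpperHalfPlane hiding I
open CongruenceSubgroup Fermat.Agent.EichlerShimura Filter Topology
open scoped MatrixGroups ModularForm Manifold

namespace Fermat.Agent.DimFormula

variable {N : ℕ} [NeZero N]

/-- `∑ₓ Bⱼ(x) · g(x)` for a cuspidal vector `g`, a level-one cusp form. -/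
def pairing {k : ℤ} (j : Cosets N) (g : cuspW N k) : CuspForm 𝒮ℒ (wt j + k) where
  toFun τ := ∑ x, basisVec j x τ * g.1 x τ
  slash_action_eq' := by
    rintro _ ⟨γ, rfl⟩
    show (fun τ => ∑ x, basisVec j x τ * g.1 x τ) ∣[wt j + k] γ = _
    have : (fun τ => ∑ x, basisVec j x τ * g.1 x τ) = ∑ x, basisVec j x * g.1 x := by
      funext τ; simp [Finset.sum_apply]
    rw [this, SlashAction.sum_slash]
    simp only [ModularForm.mul_slash_SL2, slash_of_mem (basisVec_mem j), slash_of_mem g.2.1]
    exact Equiv.sum_comp (MulAction.toPerm γ⁻¹) fun x => basisVec j x * g.1 x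
  holo' := by
    rw [UpperHalfPlane.mdifferentiable_iff]
    intro z hz
    simp only [Function.comp_def]
    exact DifferentiableWithinAt.fun_sum fun x _ =>
      ((UpperHalfPlane.mdifferentiable_iff.1 (mdiff_of_mem (basisVec_mem j) x)) z hz).mul
        ((UpperHalfPlane.mdifferentiable_iff.1 (mdiff_of_mem g.2.1 x)) z hz)
  zero_at_cusps' {c} hc := by
    rw [Subgroup.IsArithmetic.isCusp_iff_isCusp_SL2Z] at hc
    rw [OnePoint.isZeroAt_iff_forall_SL2Z hc]
    intro γ _
    have h0 : IsZeroAtImInfty fun τ => ∑ x, basisVec j x τ * g.1 x τ := by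
      have hlim : Tendsto (fun τ => ∑ x, basisVec j x τ * g.1 x τ) atImInfty
          (𝓝 (∑ _x : Cosets N, (0 : ℂ))) := by
        refine tendsto_finsetSum _ fun x _ => ?_
        have h := (bdd_of_mem (basisVec_mem j) x).mul_isLittleO
          ((Asymptotics.isLittleO_one_iff ℝ).2 (g.2.2 x))
        simp only [Pi.one_apply, mul_one] at h
        exact (Asymptotics.isLittleO_one_iff ℝ).1 h
      rwa [Finset.sum_const_zero] at hlim
    have hinv : (fun τ => ∑ x, basisVec j x τ * g.1 x τ) ∣[wt j + k] γ
        = fun τ => ∑ x, basisVec j x τ * g.1 x τ := by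
      have : (fun τ => ∑ x, basisVec j x τ * g.1 x τ) = ∑ x, basisVec j x * g.1 x := by
        funext τ; simp [Finset.sum_apply]
      rw [this, SlashAction.sum_slash]
      simp only [ModularForm.mul_slash_SL2, slash_of_mem (basisVec_mem j), slash_of_mem g.2.1]
      exact Equiv.sum_comp (MulAction.toPerm γ⁻¹) fun x => basisVec j x * g.1 x
    exact hinv.symm ▸ h0

@[simp] theorem pairing_apply {k : ℤ} (j : Cosets N) (g : cuspW N k) (τ : ℍ) :
    pairing j g τ = ∑ x, basisVec j x τ * g.1 x τ := rfl

theorem sum_valMat_mul_dualVec (x₀ j : Cosets N) (τ : ℍ) :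
    ∑ x, valMat (N := N) τ x x₀ * dualVec j x τ
      = if j = x₀ then ModularForm.discriminant τ else 0 := by
  have := congrFun (congrFun
    (Matrix.nonsing_inv_mul _ (isUnit_det_valMat (N := N) τ)) j) x₀
  rw [Matrix.mul_apply, Matrix.one_apply] at this
  calc ∑ x, valMat τ x x₀ * dualVec j x τ
      = ModularForm.discriminant τ * ∑ x, (valMat τ)⁻¹ j x * valMat τ x x₀ := by
        rw [Finset.mul_sum]
        exact Finset.sum_congr rfl fun x _ => by simp only [dualVec]; ring
    _ = _ := by rw [this]; split_ifs <;> simp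

theorem sum_dualVec_mem (k : ℤ) (e : ∀ j : Cosets N, ModularForm 𝒮ℒ (k + wt j - 12)) :
    ∑ j, mulLevelOne (e j) (dualVec j) ∈ cuspW N k := by
  refine Submodule.sum_mem _ fun j _ =>
    ⟨mulLevelOne_mem _ (dualVec_mem j).1 (by ring), fun x => ?_⟩
  have h := (isBoundedAtImInfty_levelOne (e j)).mul_isLittleO
    ((Asymptotics.isLittleO_one_iff ℝ).2 ((dualVec_mem j).2 x))
  simp only [Pi.one_apply, mul_one] at h
  exact (Asymptotics.isLittleO_one_iff ℝ).1 h

variable (N) in
/-- Combinations of the dual basis. -/
def cuspComb (k : ℤ) : (∀ j : Cosets N, ModularForm 𝒮ℒ (k + wt j - 12)) →ₗ[ℂ] cuspW N k where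
  toFun e := ⟨∑ j, mulLevelOne (e j) (dualVec j), sum_dualVec_mem k e⟩
  map_add' e f := by
    ext x τ
    simp [Finset.sum_apply, add_mul, Finset.sum_add_distrib]
  map_smul' c e := by
    ext x τ
    simp [Finset.sum_apply, Finset.mul_sum, mul_assoc]

variable (N) in
/-- `S_k` is free on the dual basis. -/
def cuspEquiv (k : ℤ) :
    (∀ j : Cosets N, ModularForm 𝒮ℒ (k + wt j - 12)) ≃ₗ[ℂ] cuspW N k := by
  refine LinearEquiv.ofBijective (cuspComb N k) ⟨?_, ?_⟩
  · rw [injective_iff_map_eq_zero]
    intro e he
    have h : ∀ x τ, ∑ j, e j τ * dualVec j x τ = 0 := fun x τ => by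
      have := congrFun (congrFun (congrArg Subtype.val he) x) τ
      simpa [cuspComb, Finset.sum_apply] using this
    funext j₀
    ext τ
    have h2 : ∑ x, valMat (N := N) τ x j₀ * ∑ j, e j τ * dualVec j x τ = 0 := by simp [h]
    simp only [Finset.mul_sum] at h2
    rw [Finset.sum_comm] at h2
    have h3 : ∀ j, ∑ x, valMat (N := N) τ x j₀ * (e j τ * dualVec j x τ)
        = e j τ * if j = j₀ then ModularForm.discriminant τ else 0 := fun j => by
      rw [← sum_valMat_mul_dualVec, Finset.mul_sum]
      exact Finset.sum_congr rfl fun x _ => by ring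
    simp only [h3, mul_ite, mul_zero, Finset.sum_ite_eq', Finset.mem_univ, if_true] at h2
    simpa [ModularForm.discriminant_ne_zero τ] using h2
  · intro g
    refine ⟨fun j => ModularForm.mcast (by ring)
      (CuspForm.discriminantEquiv (pairing j g)), Subtype.ext (funext fun x => funext fun τ => ?_)⟩
    show (∑ j, mulLevelOne _ (dualVec j)) x τ = g.1 x τ
    simp only [Finset.sum_apply, mulLevelOne_apply, ModularForm.coe_mcast]
    calc ∑ j, CuspForm.discriminantEquiv (pairing j g) τ * dualVec j x τ
        = ∑ j, ∑ y, (valMat τ y j * (valMat τ)⁻¹ j x) * g.1 y τ := by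
          refine Finset.sum_congr rfl fun j _ => ?_
          rw [CuspForm.discriminantEquiv_apply, pairing_apply, dualVec, Finset.sum_div,
            Finset.sum_mul]
          refine Finset.sum_congr rfl fun y _ => ?_
          have := ModularForm.discriminant_ne_zero τ
          simp only [valMat, Matrix.of_apply]
          field_simp
      _ = ∑ y, (valMat (N := N) τ * (valMat (N := N) τ)⁻¹ : Matrix (Cosets N) (Cosets N) ℂ) y x
          * g.1 y τ := by
          rw [Finset.sum_comm]
          simp only [Matrix.mul_apply, Finset.sum_mul]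
      _ = g.1 x τ := by
          simp [Matrix.mul_nonsing_inv _ (isUnit_det_valMat (N := N) τ), Matrix.one_apply]

theorem finrank_cuspW (k : ℤ) :
    Module.finrank ℂ (cuspW N k) = ∑ j : Cosets N, levelOneDim (k + wt j - 12) := by
  have : ∀ j : Cosets N, FiniteDimensional ℂ (ModularForm 𝒮ℒ (k + wt j - 12)) :=
    fun _ => inferInstance
  rw [← (cuspEquiv N k).finrank_eq, Module.finrank_pi_fintype]
  rfl

theorem finrank_formW_eq_sum (k : ℤ) :
    Module.finrank ℂ (formW N k) = ∑ j : Cosets N, levelOneDim (k - wt j) := by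
  rw [finrank_formW]
  exact (Equiv.sum_comp (genEquiv N) fun j => levelOneDim (k - j.1)).symm

/-- `dim M₂₄ - dim S₂₄` is the number of cusps. -/
theorem finrank_formW_24 :
    Module.finrank ℂ (formW N 24) = Module.finrank ℂ (cuspW N 24) + numOrbits N ModularGroup.T := by
  have hsurj : LinearMap.range (jetₗ N 24) = ⊤ := by
    rw [eq_top_iff, ← span_jet_gen, Submodule.span_le]
    rintro _ ⟨j, rfl⟩
    obtain ⟨x₀, rfl⟩ := (genEquiv N).surjective j
    have hw : 14 ≤ 24 - wt x₀ := by
      have := wt_mem x₀
      simp only [Finset.mem_insert, Finset.mem_singleton] at this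
      lia
    obtain ⟨e, he⟩ := exists_levelOne_value_one (a := 24 - wt x₀)
      ((show Even (24 : ℤ) by decide).sub (wt_even _)) (Or.inr (by lia))
    refine ⟨⟨mulLevelOne e (basisVec x₀), mulLevelOne_mem _ (basisVec_mem x₀) (by ring)⟩, ?_⟩
    rw [jetₗ_apply, jet_mulLevelOne _ (basisVec_mem x₀),
        show valueAtInfty e = 1 from he.limUnder_eq,
      one_smul]
    rfl
  set φ := (fixedProj N).comp (jetₗ N 24)
  have hrange : LinearMap.range φ = LinearMap.range (fixedProj N) := by
    rw [LinearMap.range_comp, hsurj, Submodule.map_top]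
  have hker : LinearMap.ker φ = (cuspW N 24).comap (formW N 24).subtype := by
    ext F
    simp [φ, mem_cuspW_iff F.2]
  have h := φ.finrank_range_add_finrank_ker
  rw [hrange, hker, finrank_range_fixedProj,
    (Submodule.comapSubtypeEquivOfLe (cuspW_le N 24)).finrank_eq] at h
  lia

theorem finrank_formW_zero : Module.finrank ℂ (formW N 0) = 1 := by
  rw [← (modularFormEquiv N 0).finrank_eq]
  refine finrank_eq_one (ModularForm.const 1) (fun h => by
    simpa using DFunLike.congr_fun h UpperHalfPlane.I) fun f => ?_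
  obtain ⟨c, hc⟩ := ModularForm.eq_const_of_weight_zero f
  exact ⟨c, DFunLike.ext _ _ fun τ => by simp [congrFun hc τ]⟩

theorem levelOneDim_zero : levelOneDim 0 = 1 := by
  have := levelOneDim_eq (a := 0) ⟨0, rfl⟩
  simpa [Nat.ModEq] using this

/-- `2 dim S₂(Γ₀(N)) + #⟨S⟩-orbits + #⟨ST⟩-orbits + #⟨T⟩-orbits = index + 2`. -/
theorem two_mul_finrank_add_orbits (N : ℕ) [NeZero N] :
    2 * Module.finrank ℂ (CuspForm (Gamma0 N) 2) + numOrbits N ModularGroup.S
      + numOrbits N (ModularGroup.S * ModularGroup.T) + numOrbits N ModularGroup.T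
      = Nat.card (Cosets N) + 2 := by
  have hS2 := finrank_cuspW (N := N) 2
  rw [← (cuspFormEquiv N 2).finrank_eq] at hS2
  have hM0 := (finrank_formW_eq_sum (N := N) 0).symm.trans finrank_formW_zero
  have h24 := finrank_formW_24 (N := N)
  rw [finrank_formW_eq_sum, finrank_cuspW] at h24
  have h4 := card_weight_mod_four (N := N) wt basisVec basisVec_mem (fun j => wt_even _)
    linearIndependent_basisVec span_basisVec
  have h6 := card_weight_mod_six (N := N) wt basisVec basisVec_mem (fun j => wt_even _)
    linearIndependent_basisVec span_basisVec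
  rw [Finset.card_filter] at h4 h6
  -- the identity holds weight by weight
  have key : ∀ j : Cosets N, 2 * levelOneDim (2 + wt j - 12) + (if (4 : ℤ) ∣ wt j then 1 else 0)
      + (if (6 : ℤ) ∣ wt j then 1 else 0) + levelOneDim (24 - wt j)
      = 1 + 2 * levelOneDim (0 - wt j) + levelOneDim (24 + wt j - 12) := by
    intro j
    have hval : ∀ n : ℕ, Even n →
        levelOneDim (n : ℤ) = if n % 12 = 2 then n / 12 else n / 12 + 1 := fun n hn => by
      rw [levelOneDim_eq hn]; rfl
    have h := wt_mem j
    simp only [Finset.mem_insert, Finset.mem_singleton] at h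
    have v0 := levelOneDim_zero
    have v12 : levelOneDim 12 = 2 := by simpa using hval 12 (by decide)
    have v14 : levelOneDim 14 = 1 := by simpa using hval 14 (by decide)
    have v16 : levelOneDim 16 = 2 := by simpa using hval 16 (by decide)
    have v18 : levelOneDim 18 = 2 := by simpa using hval 18 (by decide)
    have v20 : levelOneDim 20 = 2 := by simpa using hval 20 (by decide)
    have v22 : levelOneDim 22 = 2 := by simpa using hval 22 (by decide)
    have v24 : levelOneDim 24 = 3 := by simpa using hval 24 (by decide)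
    rcases h with h | h | h | h | h | h <;> rw [h] <;>
      norm_num [levelOneDim_of_neg, v0, v12, v14, v16, v18, v20, v22, v24]
  have hsum := Finset.sum_congr (s₁ := (Finset.univ : Finset (Cosets N))) rfl fun j _ => key j
  simp only [Finset.sum_add_distrib, ← Finset.mul_sum, Finset.sum_const, Finset.card_univ,
    smul_eq_mul, mul_one] at hsum
  rw [Nat.card_eq_fintype_card]
  lia

end Fermat.Agent.DimFormula
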