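import Mathlib.NumberTheory.ModularForms.NormTrace
import Mathlib.NumberTheory.ModularForms.CongruenceSubgroups
import Mathlib.NumberTheory.ModularForms.BoundedAtCusp
import Fermat.Agent.EichlerShimura.Defs
import Fermat.Agent.Gamma0Cosets.Basic

/-!
# Forms on `Γ₀(N)` as vector-valued forms of level one

Modular forms on `Γ₀(N)` are viewed as vectors of functions indexed by `SL(2, ℤ) ⧸ Γ₀(N)`,
equivariant for `SL(2, ℤ)`. These form a graded module over the level-one forms.
-/

set_option autoImplicit false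

noncomputable section

open UpperHalfPlane hiding I
open CongruenceSubgroup Fermat.Agent.EichlerShimura Matrix.SpecialLinearGroup
open scoped MatrixGroups ModularForm Manifold

namespace Fermat.Agent.DimFormula

variable (N : ℕ) (k : ℤ)

/-- Weight `k` forms on `Γ₀(N)` as equivariant vectors. -/
def formW : Submodule ℂ (Cosets N → ℍ → ℂ) where
  carrier := {F | (∀ x, MDiff (F x)) ∧ (∀ (γ : SL(2, ℤ)) x, (F x) ∣[k] γ = F (γ⁻¹ • x)) ∧
    ∀ x, IsBoundedAtImInfty (F x)}
  zero_mem' := ⟨fun _ => mdifferentiable_const, fun _ _ => SlashAction.zero_slash _ _,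
    fun _ => Filter.const_boundedAtFilter _ _⟩
  add_mem' {F G} hF hG := ⟨fun x => (hF.1 x).add (hG.1 x),
    fun γ x => by
      show (F x + G x) ∣[k] γ = F _ + G _
      rw [SlashAction.add_slash, hF.2.1, hG.2.1],
    fun x => (hF.2.2 x).add (hG.2.2 x)⟩
  smul_mem' c F hF := ⟨fun x => (hF.1 x).const_smul c,
    fun γ x => by
      show (c • F x) ∣[k] γ = c • F _
      rw [ModularForm.SL_smul_slash, hF.2.1],
    fun x => (hF.2.2 x).smul c⟩

/-- Weight `k` cusp forms on `Γ₀(N)` as equivariant vectors. -/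
def cuspW : Submodule ℂ (Cosets N → ℍ → ℂ) where
  carrier := {F | F ∈ formW N k ∧ ∀ x, IsZeroAtImInfty (F x)}
  zero_mem' := ⟨(formW N k).zero_mem, fun _ => Filter.zero_zeroAtFilter _⟩
  add_mem' hF hG := ⟨(formW N k).add_mem hF.1 hG.1, fun x => (hF.2 x).add (hG.2 x)⟩
  smul_mem' c _ hF := ⟨(formW N k).smul_mem c hF.1, fun x => (hF.2 x).smul c⟩

/-- Cusp forms are forms. -/
theorem cuspW_le : cuspW N k ≤ formW N k := fun _ hF => hF.1

variable {N} {k}

/-- The components of a form are holomorphic. -/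
theorem mdiff_of_mem {F : Cosets N → ℍ → ℂ} (hF : F ∈ formW N k) (x : Cosets N) : MDiff (F x) :=
  hF.1 x

/-- `SL(2, ℤ)` permutes the components of a form by the slash action. -/
theorem slash_of_mem {F : Cosets N → ℍ → ℂ} (hF : F ∈ formW N k) (γ : SL(2, ℤ)) (x : Cosets N) :
    (F x) ∣[k] γ = F (γ⁻¹ • x) :=
  hF.2.1 γ x

/-- The components of a form are bounded at `∞`. -/
theorem bdd_of_mem {F : Cosets N → ℍ → ℂ} (hF : F ∈ formW N k) (x : Cosets N) :
    IsBoundedAtImInfty (F x) :=
  hF.2.2 x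

/-- The transformation law of the components, pointwise. -/
theorem apply_smul_of_mem {F : Cosets N → ℍ → ℂ} (hF : F ∈ formW N k) (γ : SL(2, ℤ))
    (x : Cosets N) (z : ℍ) : F x (γ • z) * denom γ z ^ (-k) = F (γ⁻¹ • x) z := by
  rw [← slash_of_mem hF γ x, ModularForm.SL_slash_apply]

/-- Product of a level-one form with an equivariant vector. -/
def mulLevelOne {a : ℤ} (e : ModularForm 𝒮ℒ a) (F : Cosets N → ℍ → ℂ) : Cosets N → ℍ → ℂ :=
  fun x => ⇑e * F x

/-- The value of `mulLevelOne e F`. -/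
@[simp] theorem mulLevelOne_apply {a : ℤ} (e : ModularForm 𝒮ℒ a) (F : Cosets N → ℍ → ℂ)
    (x : Cosets N) (z : ℍ) : mulLevelOne e F x z = e z * F x z := rfl

/-- A level-one form is invariant under the slash action. -/
theorem levelOne_slash {a : ℤ} (e : ModularForm 𝒮ℒ a) (γ : SL(2, ℤ)) : (⇑e) ∣[a] γ = ⇑e :=
  e.slash_action_eq' _ ⟨γ, rfl⟩

/-- A level-one form is bounded at `∞`. -/
theorem isBoundedAtImInfty_levelOne {a : ℤ} (e : ModularForm 𝒮ℒ a) : IsBoundedAtImInfty e := by
  simpa using ModularFormClass.bdd_at_infty_slash e (1 : SL(2, ℤ))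

/-- A level-one form of weight `a` maps weight `k` to weight `a + k`. -/
theorem mulLevelOne_mem {a c : ℤ} (e : ModularForm 𝒮ℒ a) {F : Cosets N → ℍ → ℂ}
    (hF : F ∈ formW N k) (hc : a + k = c) : mulLevelOne e F ∈ formW N c := by
  subst hc
  refine ⟨fun x => e.holo'.mul (hF.1 x), fun γ x => ?_,
    fun x => (isBoundedAtImInfty_levelOne e).mul (hF.2.2 x)⟩
  show (⇑e * F x) ∣[a + k] γ = ⇑e * F (γ⁻¹ • x)
  rw [ModularForm.mul_slash_SL2, levelOne_slash, hF.2.1]

/-- The component vector attached to a function invariant under `Γ₀(N)`. -/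
def components (f : ℍ → ℂ) (hf : ∀ γ ∈ Gamma0 N, f ∣[k] γ = f) : Cosets N → ℍ → ℂ :=
  Quotient.lift (fun g : SL(2, ℤ) => f ∣[k] g⁻¹) fun g g' h => by
    have h' : g⁻¹ * g' ∈ Gamma0 N := QuotientGroup.leftRel_apply.1 h
    calc f ∣[k] g⁻¹ = f ∣[k] ((g⁻¹ * g') * g'⁻¹) := by rw [mul_inv_cancel_right]
      _ = (f ∣[k] (g⁻¹ * g')) ∣[k] g'⁻¹ := SlashAction.slash_mul k _ _ f
      _ = f ∣[k] g'⁻¹ := by rw [hf _ h']

theorem components_mk (f : ℍ → ℂ) (hf : ∀ γ ∈ Gamma0 N, f ∣[k] γ = f) (g : SL(2, ℤ)) :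
    components f hf (QuotientGroup.mk g) = f ∣[k] g⁻¹ := rfl

theorem slash_eq_of_mem_Gamma0 {F : Type*} [FunLike F ℍ ℂ]
    [SlashInvariantFormClass F (Gamma0 N) k] (f : F) {γ : SL(2, ℤ)} (hγ : γ ∈ Gamma0 N) :
    (⇑f) ∣[k] γ = ⇑f :=
  SlashInvariantFormClass.slash_action_eq f (mapGL ℝ γ) ⟨γ, hγ, rfl⟩

theorem base_slash_of_mem {F : Cosets N → ℍ → ℂ} (hF : F ∈ formW N k) {γ : SL(2, ℤ)}
    (hγ : γ ∈ Gamma0 N) : F (QuotientGroup.mk 1) ∣[k] γ = F (QuotientGroup.mk 1) := by
  rw [slash_of_mem hF, MulAction.Quotient.smul_mk]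
  exact congrArg F (QuotientGroup.eq.2 (by simpa using hγ))

variable (N) (k)

/-- Modular forms on `Γ₀(N)` are the same as equivariant vectors. -/
def modularFormEquiv [NeZero N] : ModularForm (Gamma0 N) k ≃ₗ[ℂ] formW N k where
  toFun f := ⟨components (⇑f) fun _ => slash_eq_of_mem_Gamma0 f, by
    refine ⟨fun x => ?_, fun γ x => ?_, fun x => ?_⟩
    · induction x using QuotientGroup.induction_on with
      | H g => exact (ModularFormClass.holo f).slash k (mapGL ℝ g⁻¹)
    · induction x using QuotientGroup.induction_on with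
      | H g =>
        rw [MulAction.Quotient.smul_mk, components_mk, components_mk, ← SlashAction.slash_mul]
        simp
    · induction x using QuotientGroup.induction_on with
      | H g => exact ModularFormClass.bdd_at_infty_slash f g⁻¹⟩
  map_add' f g := by
    refine Subtype.ext (funext fun x => ?_)
    induction x using QuotientGroup.induction_on with
    | H γ => exact SlashAction.add_slash k γ⁻¹ (⇑f) (⇑g)
  map_smul' c f := by
    refine Subtype.ext (funext fun x => ?_)
    induction x using QuotientGroup.induction_on with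
    | H γ => exact ModularForm.SL_smul_slash k γ⁻¹ (⇑f) c
  invFun F :=
    { toFun := F.1 (QuotientGroup.mk 1)
      slash_action_eq' := by
        rintro _ ⟨γ, hγ, rfl⟩
        exact base_slash_of_mem F.2 hγ
      holo' := mdiff_of_mem F.2 _
      bdd_at_cusps' := fun {c} hc => by
        rw [Subgroup.IsArithmetic.isCusp_iff_isCusp_SL2Z] at hc
        rw [OnePoint.isBoundedAt_iff_forall_SL2Z hc]
        intro γ _
        rw [slash_of_mem F.2]
        exact bdd_of_mem F.2 _ }
  left_inv f := DFunLike.ext' ((components_mk (⇑f) (fun _ => slash_eq_of_mem_Gamma0 f) 1).trans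
    (by rw [inv_one, SlashAction.slash_one]))
  right_inv F := by
    refine Subtype.ext (funext fun x => ?_)
    induction x using QuotientGroup.induction_on with
    | H γ =>
      show F.1 (QuotientGroup.mk 1) ∣[k] γ⁻¹ = _
      rw [slash_of_mem F.2, inv_inv, MulAction.Quotient.smul_mk, smul_eq_mul, mul_one]

/-- Cusp forms on `Γ₀(N)` are the same as cuspidal equivariant vectors. -/
def cuspFormEquiv [NeZero N] : CuspForm (Gamma0 N) k ≃ₗ[ℂ] cuspW N k where
  toFun f := ⟨components (⇑f) fun _ => slash_eq_of_mem_Gamma0 f, by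
    refine ⟨(modularFormEquiv N k (ModularFormClass.modularForm f)).2, fun x => ?_⟩
    induction x using QuotientGroup.induction_on with
    | H g => exact CuspFormClass.zero_at_infty_slash f g⁻¹⟩
  map_add' f g := by
    refine Subtype.ext (funext fun x => ?_)
    induction x using QuotientGroup.induction_on with
    | H γ => exact SlashAction.add_slash k γ⁻¹ (⇑f) (⇑g)
  map_smul' c f := by
    refine Subtype.ext (funext fun x => ?_)
    induction x using QuotientGroup.induction_on with
    | H γ => exact ModularForm.SL_smul_slash k γ⁻¹ (⇑f) c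
  invFun F :=
    { toFun := F.1 (QuotientGroup.mk 1)
      slash_action_eq' := by
        rintro _ ⟨γ, hγ, rfl⟩
        exact base_slash_of_mem F.2.1 hγ
      holo' := mdiff_of_mem F.2.1 _
      zero_at_cusps' := fun {c} hc => by
        rw [Subgroup.IsArithmetic.isCusp_iff_isCusp_SL2Z] at hc
        rw [OnePoint.isZeroAt_iff_forall_SL2Z hc]
        intro γ _
        rw [slash_of_mem F.2.1]
        exact F.2.2 _ }
  left_inv f := DFunLike.ext' ((components_mk (⇑f) (fun _ => slash_eq_of_mem_Gamma0 f) 1).trans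
    (by rw [inv_one, SlashAction.slash_one]))
  right_inv F := by
    refine Subtype.ext (funext fun x => ?_)
    induction x using QuotientGroup.induction_on with
    | H γ =>
      show F.1 (QuotientGroup.mk 1) ∣[k] γ⁻¹ = _
      rw [slash_of_mem F.2.1, inv_inv, MulAction.Quotient.smul_mk, smul_eq_mul, mul_one]

end Fermat.Agent.DimFormula
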