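import Fermat.Agent.DimFormula.Rank

/-!
# The dual basis of cusp forms

`G j = Δ · (row j of B⁻¹)` is the dual basis of cusp forms, where `B(τ) x j = gen j x τ`.
-/

set_option autoImplicit false

noncomputable section

open UpperHalfPlane hiding I
open CongruenceSubgroup Fermat.Agent.EichlerShimura Filter Topology
open scoped MatrixGroups ModularForm Manifold

namespace Fermat.Agent.DimFormula

variable {N : ℕ} [NeZero N]

instance fintype_cosets : Fintype (Cosets N) := Fintype.ofFinite _

instance decidableEq_cosets : DecidableEq (Cosets N) := Classical.decEq _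

variable (N) in
/-- An arbitrary numbering of the generators by the cosets. -/
def genEquiv : Cosets N ≃ GenIdx N :=
  Fintype.equivOfCardEq (by rw [card_genIdx, Nat.card_eq_fintype_card])

/-- The weight of the `j`-th generator. -/
def wt (j : Cosets N) : ℤ := (genEquiv N j).1

/-- The `j`-th generator. -/
def basisVec (j : Cosets N) : Vec N := gen (genEquiv N j)

/-- `basisVec j` is a form of weight `wt j`. -/
theorem basisVec_mem (j : Cosets N) : basisVec j ∈ formW N (wt j) := gen_mem _

/-- At every point the values of the `basisVec j` are linearly independent. -/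
theorem linearIndependent_basisVec (z : ℍ) :
    LinearIndependent ℂ fun j x => basisVec (N := N) j x z :=
  (linearIndependent_gen_values z).comp _ (genEquiv N).injective

/-- At every point the values of the `basisVec j` span. -/
theorem span_basisVec (z : ℍ) :
    Submodule.span ℂ (Set.range fun j x => basisVec (N := N) j x z) = ⊤ := by
  rw [← span_gen_values z]
  congr 1
  exact (genEquiv N).surjective.range_comp (fun (j : GenIdx N) x => gen j x z)

/-- The matrix of values of the generators. -/
def valMat (τ : ℍ) : Matrix (Cosets N) (Cosets N) ℂ := Matrix.of fun x j => basisVec j x τ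

/-- The matrix of values of the basis is invertible at every point. -/
theorem isUnit_det_valMat (τ : ℍ) : IsUnit (valMat (N := N) τ).det := by
  rw [← Matrix.isUnit_iff_isUnit_det]
  exact Matrix.linearIndependent_cols_iff_isUnit.1 (linearIndependent_basisVec τ)

/-- The matrix of jets of the generators. -/
def jetMat : Matrix (Cosets N) (Cosets N) ℂ := Matrix.of fun x j => jet N (basisVec j) x

theorem isUnit_det_jetMat : IsUnit (jetMat (N := N)).det := by
  rw [← Matrix.isUnit_iff_isUnit_det]
  refine Matrix.linearIndependent_cols_iff_isUnit.1 ?_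
  refine linearIndependent_of_top_le_span_of_card_eq_finrank ?_ (by rw [Module.finrank_pi])
  rw [← span_jet_gen]
  refine le_of_eq ?_
  congr 1
  exact ((genEquiv N).surjective.range_comp (fun j : GenIdx N => jet N (gen j))).symm

variable (N) in
/-- The untwisting matrix: `twistSum F = untwist · F`. -/
def untwist (τ : ℍ) : Matrix (Cosets N) (Cosets N) ℂ :=
  Matrix.of fun x y => ∑ r ∈ Finset.range N, ∑ m ∈ Finset.range N,
    if ModularGroup.T ^ (-(m : ℤ)) • x = y then
      (N : ℂ)⁻¹ * zetaN N ^ (-((r : ℤ) * m)) * qRoot N τ ^ (-(r : ℤ)) else 0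

theorem untwist_mul (τ : ℍ) (x j : Cosets N) :
    (untwist N τ * valMat (N := N) τ) x j = twistSum N (basisVec j) x τ := by
  simp only [Matrix.mul_apply, untwist, valMat, Matrix.of_apply, Finset.sum_mul]
  rw [Finset.sum_comm]
  refine Finset.sum_congr rfl fun r _ => ?_
  rw [Finset.sum_comm, twist, Finset.mul_sum, Finset.sum_mul]
  refine Finset.sum_congr rfl fun m _ => ?_
  rw [Finset.sum_eq_single (ModularGroup.T ^ (-(m : ℤ)) • x)]
  · simp only [if_true]; ring
  · intro y _ hy; rw [if_neg (Ne.symm hy), zero_mul]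
  · simp

theorem tendsto_discriminant_mul_untwist (x y : Cosets N) :
    Tendsto (fun τ => ModularForm.discriminant τ * untwist N τ x y) atImInfty (𝓝 0) := by
  simp only [untwist, Matrix.of_apply, Finset.mul_sum, mul_ite, mul_zero]
  rw [show 𝓝 (0 : ℂ) = 𝓝 (∑ r ∈ Finset.range N, ∑ m ∈ Finset.range N, (0 : ℂ)) by simp]
  refine tendsto_finsetSum _ fun r hr => tendsto_finsetSum _ fun m _ => ?_
  have hr' := Finset.mem_range.1 hr
  by_cases h : ModularGroup.T ^ (-(m : ℤ)) • x = y
  · simp only [if_pos h]
    have h1 := ((tendsto_qRoot (N := N)).pow (N - r)).mul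
      ModularForm.tendsto_atImInfty_tprod_one_sub_eta_q_pow
    rw [zero_pow (by lia : N - r ≠ 0), zero_mul] at h1
    have h2 := h1.const_mul ((N : ℂ)⁻¹ * zetaN N ^ (-((r : ℤ) * m)))
    rw [mul_zero] at h2
    refine h2.congr fun τ => ?_
    rw [ModularForm.discriminant_eq_q_prod, ← qRoot_pow_card (N := N) τ,
      pow_sub₀ _ (qRoot_ne_zero τ) hr'.le]
    simp only [zpow_neg, zpow_natCast]
    ring
  · simp only [if_neg h]
    exact tendsto_const_nhds

/-- The dual basis of cusp forms. -/
def dualVec (j : Cosets N) : Vec N := fun x τ =>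
  ModularForm.discriminant τ * (valMat τ)⁻¹ j x

theorem mdiff_dualVec (j x : Cosets N) : MDiff (dualVec j x) := by
  rw [UpperHalfPlane.mdifferentiable_iff]
  intro z hz
  refine DifferentiableAt.differentiableWithinAt ?_
  have hd : ∀ {f : ℍ → ℂ}, MDiff f → DifferentiableAt ℂ (f ∘ ofComplex) z := fun hf =>
    (UpperHalfPlane.mdifferentiable_iff.1 hf z hz).differentiableAt
      (isOpen_upperHalfPlaneSet.mem_nhds hz)
  have hent : ∀ a b : Cosets N, DifferentiableAt ℂ (fun w => valMat (ofComplex w) a b) z :=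
    fun a b => hd (mdiff_of_mem (basisVec_mem b) a)
  have hdet : ∀ M : ℂ → Matrix (Cosets N) (Cosets N) ℂ,
      (∀ a b, DifferentiableAt ℂ (fun w => M w a b) z) →
      DifferentiableAt ℂ (fun w => (M w).det) z := fun M hM => by
    simp only [Matrix.det_apply]
    exact DifferentiableAt.fun_sum fun σ _ =>
      (DifferentiableAt.fun_finsetProd fun i _ => hM _ _).const_smul _
  have hadj : DifferentiableAt ℂ (fun w => (valMat (N := N) (ofComplex w)).adjugate j x) z := by
    simp only [Matrix.adjugate_apply]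
    refine hdet _ fun a b => ?_
    simp only [Matrix.updateRow_apply]
    split_ifs
    · exact differentiableAt_const _
    · exact hent a b
  have hD : DifferentiableAt ℂ (ModularForm.discriminant ∘ ofComplex) z :=
    hd CuspForm.discriminant.holo'
  refine ((hD.mul (hadj.div (hdet _ hent) ((isUnit_det_valMat _).ne_zero))).congr_of_eventuallyEq
    (Eventually.of_forall fun w => ?_))
  simp [dualVec, Matrix.inv_def, Ring.inverse_eq_inv', div_eq_inv_mul]

theorem slash_dualVec (j : Cosets N) (γ : SL(2, ℤ)) (x : Cosets N) :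
    (dualVec j x) ∣[12 - wt j] γ = dualVec j (γ⁻¹ • x) := by
  ext τ
  have hden : denom γ τ ≠ 0 := denom_ne_zero γ τ
  -- the inverse of the matrix of values at `γ • τ`
  set B : Matrix (Cosets N) (Cosets N) ℂ :=
    Matrix.of fun j x => denom γ τ ^ (-wt j) * (valMat τ)⁻¹ j (γ⁻¹ • x) with hB
  have hBinv : B * valMat (γ • τ) = 1 := by
    ext a b
    have hterm : ∀ y, B a y * valMat (γ • τ) y b
        = denom γ τ ^ (-wt a) * denom γ τ ^ (wt b) *
          ((valMat τ)⁻¹ a (γ⁻¹ • y) * valMat τ (γ⁻¹ • y) b) := fun y => by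
      have h := apply_smul_of_mem (basisVec_mem b) γ y τ
      have h' : basisVec b y (γ • τ) = basisVec b (γ⁻¹ • y) τ * denom γ τ ^ (wt b) := by
        rw [← h, mul_assoc, ← zpow_add₀ hden, neg_add_cancel, zpow_zero, mul_one]
      simp only [hB, valMat, Matrix.of_apply, h']
      ring
    rw [Matrix.mul_apply, Finset.sum_congr rfl fun y _ => hterm y, ← Finset.mul_sum,
      show ∑ i, (valMat (N := N) τ)⁻¹ a (γ⁻¹ • i) * valMat τ (γ⁻¹ • i) b
        = ∑ y, (valMat (N := N) τ)⁻¹ a y * valMat τ y b from
      Equiv.sum_comp (MulAction.toPerm γ⁻¹) fun y => (valMat τ)⁻¹ a y * valMat τ y b,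
      ← Matrix.mul_apply, Matrix.nonsing_inv_mul _ (isUnit_det_valMat τ)]
    rcases eq_or_ne a b with rfl | hab
    · rw [← zpow_add₀ hden, neg_add_cancel, zpow_zero, one_mul]
    · simp [Matrix.one_apply_ne hab]
  rw [ModularForm.SL_slash_apply]
  show ModularForm.discriminant (γ • τ) * (valMat (γ • τ))⁻¹ j x * denom γ τ ^ (-(12 - wt j))
    = ModularForm.discriminant τ * (valMat τ)⁻¹ j (γ⁻¹ • x)
  have hΔ : ModularForm.discriminant (γ • τ) * denom γ τ ^ (-12 : ℤ)
      = ModularForm.discriminant τ := by
    have := congrFun (SlashInvariantFormClass.slash_action_eq CuspForm.discriminant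
      (γ : GL (Fin 2) ℝ) ⟨γ, rfl⟩) τ
    rw [← ModularForm.SL_slash, ModularForm.SL_slash_apply] at this
    exact this
  rw [Matrix.inv_eq_left_inv hBinv, ← hΔ, show -(12 - wt j) = (-12 : ℤ) + wt j by ring,
    zpow_add₀ hden]
  have hcancel : denom γ τ ^ (-wt j) * denom γ τ ^ (wt j) = 1 := by
    rw [← zpow_add₀ hden, neg_add_cancel, zpow_zero]
  simp only [hB, Matrix.of_apply]
  linear_combination (ModularForm.discriminant (γ • τ) * denom γ τ ^ (-12 : ℤ) *
    (valMat τ)⁻¹ j (γ⁻¹ • x)) * hcancel

theorem tendsto_dualVec (j x : Cosets N) : Tendsto (dualVec j x) atImInfty (𝓝 0) := by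
  set M : ℍ → Matrix (Cosets N) (Cosets N) ℂ := fun τ => untwist N τ * valMat τ with hM
  have hMlim : Tendsto M atImInfty (𝓝 jetMat) := by
    refine tendsto_pi_nhds.2 fun a => tendsto_pi_nhds.2 fun b => ?_
    exact (tendsto_twistSum (basisVec_mem b) a).congr fun τ => (untwist_mul τ a b).symm
  have hdet : Tendsto (fun τ => (M τ).det) atImInfty (𝓝 (jetMat (N := N)).det) :=
    ((continuous_id.matrix_det).tendsto _).comp hMlim
  have hadj : Tendsto (fun τ => (M τ).adjugate) atImInfty (𝓝 (jetMat (N := N)).adjugate) :=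
    ((continuous_id.matrix_adjugate).tendsto _).comp hMlim
  have hne := (isUnit_det_jetMat (N := N)).ne_zero
  have hev : ∀ᶠ τ in atImInfty, ∑ y, ((M τ).det)⁻¹ * (M τ).adjugate j y *
      (ModularForm.discriminant τ * untwist N τ y x) = dualVec j x τ := by
    filter_upwards [hdet.eventually_ne hne] with τ hτ
    have hinv : ((M τ)⁻¹ * untwist N τ) * valMat τ = 1 := by
      rw [mul_assoc]
      exact Matrix.nonsing_inv_mul _ (Ne.isUnit hτ)
    rw [dualVec, Matrix.inv_eq_left_inv hinv, Matrix.mul_apply, Finset.mul_sum]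
    refine Finset.sum_congr rfl fun y _ => ?_
    rw [Matrix.inv_def, Ring.inverse_eq_inv', Matrix.smul_apply, smul_eq_mul]
    ring
  refine Tendsto.congr' hev ?_
  rw [show (0 : ℂ) = ∑ _y : Cosets N, (0 : ℂ) by simp]
  refine tendsto_finsetSum _ fun y _ => ?_
  have hjy : Tendsto (fun τ => (M τ).adjugate j y) atImInfty (𝓝 ((jetMat (N := N)).adjugate j y)) :=
    tendsto_pi_nhds.1 (tendsto_pi_nhds.1 hadj j) y
  simpa using ((hdet.inv₀ hne).mul hjy).mul (tendsto_discriminant_mul_untwist y x)

/-- `dualVec j` is a cusp form of weight `12 - wt j`. -/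
theorem dualVec_mem (j : Cosets N) : dualVec j ∈ cuspW N (12 - wt j) :=
  ⟨⟨fun x => mdiff_dualVec j x, fun γ x => slash_dualVec j γ x,
    fun x => (tendsto_dualVec j x).isBigO_one ℝ⟩, fun x => tendsto_dualVec j x⟩

theorem dualVec_ne_zero (j : Cosets N) : dualVec j ≠ 0 := by
  intro h
  have h' : ∀ x, (valMat (N := N) UpperHalfPlane.I)⁻¹ j x = 0 := fun x => by
    have := congrFun (congrFun h x) UpperHalfPlane.I
    exact (mul_eq_zero.1 this).resolve_left (ModularForm.discriminant_ne_zero _)
  have := Matrix.nonsing_inv_mul _ (isUnit_det_valMat (N := N) UpperHalfPlane.I)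
  have := congrFun (congrFun this j) j
  simp [Matrix.mul_apply, h'] at this

theorem cuspW_eq_zero_of_nonpos {k : ℤ} (hk : k ≤ 0) {F : Vec N} (hF : F ∈ cuspW N k) : F = 0 := by
  rcases lt_or_eq_of_le hk with hk | rfl
  · exact eq_zero_of_neg hF.1 hk
  · funext x τ
    let f := (modularFormEquiv N 0).symm ⟨F, hF.1⟩
    obtain ⟨c, hc⟩ := ModularForm.eq_const_of_weight_zero f
    have hFb : F (QuotientGroup.mk 1) = fun _ => c := hc
    have hc0 : c = 0 := by
      refine tendsto_nhds_unique (f := fun _ : ℍ => c) (l := atImInfty) tendsto_const_nhds ?_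
      exact hFb ▸ hF.2 (QuotientGroup.mk 1)
    induction x using QuotientGroup.induction_on with
    | H g =>
      have := apply_smul_of_mem hF.1 g⁻¹ (QuotientGroup.mk 1) τ
      rw [inv_inv, MulAction.Quotient.smul_mk, smul_eq_mul, mul_one, hFb, hc0] at this
      simpa using this.symm

theorem wt_lt_twelve (j : Cosets N) : wt j < 12 := by
  by_contra h
  exact dualVec_ne_zero j (cuspW_eq_zero_of_nonpos (by lia) (dualVec_mem j))

/-- The weights of the generators are even and less than `12`. -/
theorem wt_mem (j : Cosets N) : wt j ∈ ({0, 2, 4, 6, 8, 10} : Finset ℤ) := by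
  have h1 := wt_lt_twelve j
  have h2 : 0 ≤ wt j := wt_nonneg _
  obtain ⟨r, hr⟩ : Even (wt j) := wt_even _
  simp only [Finset.mem_insert, Finset.mem_singleton]
  lia

end Fermat.Agent.DimFormula
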