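import Mathlib.NumberTheory.ModularForms.LevelOne.GradedRing

/-!
# Level-one modular forms

The facts about level-one forms used by the dimension formula: dimensions, values at infinity and
decomposition by the monomials in `E₄` and `E₆`.
-/

set_option autoImplicit false

noncomputable section

open UpperHalfPlane hiding I
open ModularForm Filter Topology EisensteinSeries
open scoped MatrixGroups ModularForm

namespace Fermat.Agent.DimFormula

theorem levelOne_periodic {a : ℤ} (e : ModularForm 𝒮ℒ a) :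
    Function.Periodic (⇑e ∘ ofComplex) ((1 : ℝ) : ℂ) :=
  SlashInvariantFormClass.periodic_comp_ofComplex e one_mem_strictPeriods_SL

theorem valueAtInfty_eq_coeff_zero {a : ℤ} (e : ModularForm 𝒮ℒ a) :
    valueAtInfty e = (qExpansion 1 e).coeff 0 :=
  (qExpansion_coeff_zero one_pos
    (ModularFormClass.analyticAt_cuspFunction_zero e one_pos one_mem_strictPeriods_SL)
    (levelOne_periodic e)).symm

/-- A level-one form tends to its constant term at `∞`. -/
theorem tendsto_levelOne {a : ℤ} (e : ModularForm 𝒮ℒ a) :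
    Tendsto (⇑e) atImInfty (𝓝 (valueAtInfty e)) := by
  have hanal := ModularFormClass.analyticAt_cuspFunction_zero e one_pos one_mem_strictPeriods_SL
  rw [← cuspFunction_apply_zero one_pos hanal (levelOne_periodic e)]
  exact (hanal.continuousAt.tendsto.comp (qParam_tendsto_atImInfty one_pos)).congr
    fun τ => SlashInvariantFormClass.eq_cuspFunction e τ one_mem_strictPeriods_SL one_ne_zero

/-- An Eisenstein series of level one tends to `1` at `∞`. -/
theorem tendsto_E {k : ℕ} (hk : 3 ≤ k) (hk2 : Even k) : Tendsto (⇑(E hk)) atImInfty (𝓝 1) := by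
  have := tendsto_levelOne (E hk)
  rwa [valueAtInfty_eq_coeff_zero, E_qExpansion_coeff_zero hk hk2] at this

/-- A level-one form of given even weight `a ≠ 2`, `a ≥ 0`, with value `1` at `∞`. -/
theorem exists_levelOne_value_one {a : ℤ} (ha : Even a) (h : a = 0 ∨ 4 ≤ a) :
    ∃ e : ModularForm 𝒮ℒ a, Tendsto (⇑e) atImInfty (𝓝 1) := by
  rcases h with rfl | h
  · exact ⟨const 1, tendsto_const_nhds⟩
  · obtain ⟨k, rfl⟩ : ∃ k : ℕ, (k : ℤ) = a := ⟨a.toNat, by lia⟩
    exact ⟨E (by lia : 3 ≤ k), tendsto_E _ (by exact_mod_cast ha)⟩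

/-- `E₄` and `E₆` have no common zero. -/
theorem not_common_zero (z : ℍ) (h4 : E₄ z = 0) (h6 : E₆ z = 0) : False :=
  discriminant_ne_zero z (by rw [discriminant_eq_E₄_cube_sub_E₆_sq z, h4, h6]; ring)

theorem levelOne_eq_zero_of_odd {a : ℤ} (ha : Odd a) (e : ModularForm 𝒮ℒ a) : e = 0 :=
  levelOne_odd_weight_eq_zero ha e

/-- There are no nonzero level-one forms of negative weight. -/
theorem levelOne_eq_zero_of_neg {a : ℤ} (ha : a < 0) (e : ModularForm 𝒮ℒ a) : e = 0 :=
  rank_zero_iff_forall_zero.mp (levelOne_neg_weight_rank_zero ha) e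

theorem levelOne_eq_zero_two (e : ModularForm 𝒮ℒ 2) : e = 0 :=
  rank_zero_iff_forall_zero.mp levelOne_weight_two_rank_zero e

/-- The dimension of the level-one forms of even weight. -/
theorem finrank_levelOne {a : ℕ} (ha : Even a) :
    Module.finrank ℂ (ModularForm 𝒮ℒ (a : ℤ)) = if a ≡ 2 [MOD 12] then a / 12 else a / 12 + 1 := by
  have := dimension_level_one a ha
  refine Module.finrank_eq_of_rank_eq ?_
  exact this.trans (by split_ifs <;> simp)

/-- The dimension in negative weight is zero. -/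
theorem finrank_levelOne_neg {a : ℤ} (ha : a < 0) :
    Module.finrank ℂ (ModularForm 𝒮ℒ a) = 0 :=
  Module.finrank_eq_of_rank_eq (by rw [levelOne_neg_weight_rank_zero ha]; simp)

/-- An explicit monomial in `E₄`, `E₆` with constant term one. -/
theorem exists_monomial_value_one {a : ℤ} (ha : Even a) (h : 4 ≤ a) :
    ∃ (b : ModularForm 𝒮ℒ (a - 4)) (d : ModularForm 𝒮ℒ (a - 6)) (m : ModularForm 𝒮ℒ a),
      Tendsto (⇑m) atImInfty (𝓝 1) ∧ ∀ z, m z = E₄ z * b z + E₆ z * d z := by
  by_cases h' : a = 6
  · subst h'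
    exact ⟨0, const 1, E₆, tendsto_E _ ⟨3, rfl⟩, fun z => by simp⟩
  · obtain ⟨b, hb⟩ := exists_levelOne_value_one (a := a - 4) (ha.sub (by decide))
      (by obtain ⟨r, rfl⟩ := ha; lia)
    refine ⟨b, 0, mcast (by ring) (E₄.mul b), ?_, fun z => by simp⟩
    simpa using! (tendsto_E (k := 4) (by norm_num) ⟨2, rfl⟩).mul hb

/-- `M_a(1) = E₄ M_{a-4}(1) + E₆ M_{a-6}(1)` for `a ≠ 0`. -/
theorem levelOne_decomp {a : ℤ} (ha : a ≠ 0) (e : ModularForm 𝒮ℒ a) :
    ∃ (b : ModularForm 𝒮ℒ (a - 4)) (d : ModularForm 𝒮ℒ (a - 6)),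
      ∀ z, e z = E₄ z * b z + E₆ z * d z := by
  rcases Int.even_or_odd a with hev | hodd
  · rcases lt_or_ge a 4 with h4 | h4
    · refine ⟨0, 0, fun z => ?_⟩
      have : e = 0 := by
        rcases lt_or_ge a 0 with h | h
        · exact levelOne_eq_zero_of_neg h e
        · obtain rfl : a = 2 := by obtain ⟨r, rfl⟩ := hev; lia
          exact levelOne_eq_zero_two e
      simp [this]
    · obtain ⟨b, d, m, hm, hmz⟩ := exists_monomial_value_one hev h4
      set c := valueAtInfty e
      have h0 : (qExpansion 1 ((e - c • m : ModularForm 𝒮ℒ a) : ℍ → ℂ)).coeff 0 = 0 := by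
        rw [← valueAtInfty_eq_coeff_zero (e - c • m)]
        refine Tendsto.limUnder_eq ?_
        have h := (tendsto_levelOne e).sub (hm.const_mul c)
        rw [mul_one, sub_self] at h
        exact h.congr fun τ => by simp
      set g := CuspForm.discriminantEquiv (toCuspForm (e - c • m) h0) with hg
      refine ⟨c • b + mcast (by ring) (((1 / 1728 : ℂ) • E₄.mul E₄).mul g),
        c • d - mcast (by ring) (((1 / 1728 : ℂ) • E₆).mul g), fun z => ?_⟩
      have h1 : discriminant z * g z = e z - c * m z := by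
        rw [hg, discriminant_mul_discriminantEquiv_apply]
        simp
      rw [discriminant_eq_E₄_cube_sub_E₆_sq] at h1
      simp only [add_apply, sub_apply, smul_apply, smul_eq_mul, coe_mcast, coe_mul, Pi.mul_apply]
      linear_combination -h1 + c * hmz z
  · exact ⟨0, 0, fun z => by simp [levelOne_eq_zero_of_odd hodd e]⟩

end Fermat.Agent.DimFormula
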