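import Fermat.Agent.DimFormula.Basic
import Fermat.Agent.DimFormula.LevelOne
import Mathlib.RingTheory.RootsOfUnity.Complex

/-!
# Equivariant vectors at `∞`

The twisted expansions `twist r F` (holomorphic in `q = e^{2πiτ}`), the jet `∑ r, twist r F (∞)`,
and division by `Δ` of forms with vanishing jet.
-/

set_option autoImplicit false

noncomputable section

open UpperHalfPlane hiding I
open Complex CongruenceSubgroup Fermat.Agent.EichlerShimura Matrix.SpecialLinearGroup
open ModularGroup Filter Topology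
open scoped MatrixGroups ModularForm Manifold Real

namespace Fermat.Agent.DimFormula

variable {N : ℕ} [NeZero N] {k : ℤ}

/-- `e^{2πi/N}`. -/
def zetaN (N : ℕ) : ℂ := Complex.exp (2 * π * I / N)

/-- `e^{2πiτ/N}`. -/
def qRoot (N : ℕ) (τ : ℍ) : ℂ := Complex.exp (2 * π * I * τ / N)

omit [NeZero N] in
theorem zetaN_ne_zero : zetaN N ≠ 0 := Complex.exp_ne_zero _

omit [NeZero N] in
/-- `qRoot N τ` is nonzero. -/
theorem qRoot_ne_zero (τ : ℍ) : qRoot N τ ≠ 0 := Complex.exp_ne_zero _

omit [NeZero N] in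
theorem qRoot_vadd_one (τ : ℍ) : qRoot N ((1 : ℝ) +ᵥ τ) = zetaN N * qRoot N τ := by
  rw [qRoot, qRoot, zetaN, ← Complex.exp_add]
  congr 1
  rw [coe_vadd]
  push_cast
  ring

theorem zetaN_isPrimitiveRoot : IsPrimitiveRoot (zetaN N) N :=
  Complex.isPrimitiveRoot_exp N (NeZero.ne N)

theorem zetaN_sum (j : ℤ) :
    ∑ m ∈ Finset.range N, (zetaN N ^ j) ^ m = if (N : ℤ) ∣ j then (N : ℂ) else 0 := by
  have h := (zetaN_isPrimitiveRoot (N := N)).zpow_eq_one_iff_dvd j
  split_ifs with hd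
  · simp [h.2 hd]
  · have h1 : zetaN N ^ j ≠ 1 := fun hc => hd (h.1 hc)
    refine (mul_eq_zero.1 ?_).resolve_right (sub_ne_zero.2 h1)
    rw [geom_sum_mul, ← zpow_natCast, ← zpow_mul,
      (zetaN_isPrimitiveRoot (N := N)).zpow_eq_one_iff_dvd _ |>.2 ⟨j, mul_comm _ _⟩, sub_self]

/-- `qRoot N` tends to `0` at `∞`. -/
theorem tendsto_qRoot : Tendsto (qRoot N) atImInfty (𝓝 0) := by
  simpa [qRoot, Function.Periodic.qParam] using!
    qParam_tendsto_atImInfty (h := (N : ℝ)) (Nat.cast_pos.2 (Nat.pos_of_ne_zero (NeZero.ne N)))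

/-- The `N`-th power of `qRoot N τ` is `q`. -/
theorem qRoot_pow_card (τ : ℍ) : qRoot N τ ^ N = Function.Periodic.qParam 1 τ := by
  have := NeZero.ne N
  rw [qRoot, Function.Periodic.qParam, ← Complex.exp_nat_mul]
  congr 1
  push_cast
  field_simp

omit [NeZero N] in
/-- `T ^ N` acts trivially on the cosets of `Γ₀(N)`. -/
theorem T_zpow_mul_smul (j : ℤ) (x : Cosets N) : T ^ ((N : ℤ) * j) • x = x := by
  obtain ⟨A, rfl⟩ := Gamma0Cosets.pt_surjective x
  rw [Gamma0Cosets.smul_pt, Gamma0Cosets.pt_eq_pt_iff]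
  refine ⟨(A 1 0) * (A 1 0) * j, ?_⟩
  simp [Gamma0Cosets.crossProd, coe_inv, coe_T_zpow, Matrix.adjugate_fin_two, Matrix.mul_apply,
    Fin.sum_univ_two, -map_zpow]
  ring

omit [NeZero N] in
theorem apply_vadd_one {F : Cosets N → ℍ → ℂ} (hF : F ∈ formW N k) (x : Cosets N) (τ : ℍ) :
    F x ((1 : ℝ) +ᵥ τ) = F (T⁻¹ • x) τ := by
  have h := apply_smul_of_mem hF T x τ
  rw [modular_T_smul] at h
  simpa [denom, coe_T] using h

/-- The `r`-th twisted component at `∞`. -/
def twist (N r : ℕ) (F : Cosets N → ℍ → ℂ) (x : Cosets N) (τ : ℍ) : ℂ :=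
  (N : ℂ)⁻¹ * (∑ m ∈ Finset.range N, zetaN N ^ (-((r : ℤ) * m)) * F (T ^ (-(m : ℤ)) • x) τ) *
    qRoot N τ ^ (-(r : ℤ))

theorem sum_zeta_shift (r : ℕ) (F : Cosets N → ℍ → ℂ) (x : Cosets N) (τ : ℍ) :
    ∑ m ∈ Finset.range N, zetaN N ^ (-((r : ℤ) * m)) * F (T ^ (-(m : ℤ)) • T⁻¹ • x) τ
      = zetaN N ^ (r : ℤ) *
        ∑ m ∈ Finset.range N, zetaN N ^ (-((r : ℤ) * m)) * F (T ^ (-(m : ℤ)) • x) τ := by
  set g : ℕ → ℂ := fun m => zetaN N ^ (-((r : ℤ) * m)) * F (T ^ (-(m : ℤ)) • x) τ with hg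
  have hN : g N = g 0 := by
    have h1 : zetaN N ^ (-((r : ℤ) * N)) = 1 :=
      (zetaN_isPrimitiveRoot.zpow_eq_one_iff_dvd _).2 ⟨-r, by ring⟩
    have h2 : T ^ (-(N : ℤ)) • x = x := by simpa using T_zpow_mul_smul (N := N) (-1) x
    simp only [hg]
    rw [h1, h2]
    simp
  have h1 : ∀ m : ℕ, zetaN N ^ (-((r : ℤ) * m)) * F (T ^ (-(m : ℤ)) • T⁻¹ • x) τ
      = zetaN N ^ (r : ℤ) * g (m + 1) := fun m => by
    rw [hg, ← mul_assoc, ← zpow_add₀ zetaN_ne_zero, smul_smul, ← zpow_sub_one]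
    congr 2 <;> push_cast
    · ring
    · congr 2; ring
  rw [Finset.sum_congr rfl fun m _ => h1 m, ← Finset.mul_sum]
  congr 1
  have := Finset.sum_range_succ' g N
  rw [Finset.sum_range_succ, hN] at this
  exact (add_right_cancel this).symm

theorem twist_vadd_one {F : Cosets N → ℍ → ℂ} (hF : F ∈ formW N k) (r : ℕ) (x : Cosets N)
    (τ : ℍ) : twist N r F x ((1 : ℝ) +ᵥ τ) = twist N r F x τ := by
  have h : ∀ y : Cosets N, ∀ m : ℕ,
      T⁻¹ • T ^ (-(m : ℤ)) • y = T ^ (-(m : ℤ)) • T⁻¹ • y := fun y m => by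
    rw [smul_smul, smul_smul, ← zpow_neg_one, ← zpow_add, ← zpow_add, add_comm]
  simp only [twist, apply_vadd_one hF, h, qRoot_vadd_one, sum_zeta_shift]
  simp only [zpow_neg, zpow_natCast]
  have := zetaN_ne_zero (N := N)
  have := qRoot_ne_zero (N := N) τ
  have hN : (N : ℂ) ≠ 0 := by exact_mod_cast NeZero.ne N
  field_simp
  try ring

theorem twist_inv_T (r : ℕ) (F : Cosets N → ℍ → ℂ) (x : Cosets N) (τ : ℍ) :
    twist N r F (T⁻¹ • x) τ = zetaN N ^ (r : ℤ) * twist N r F x τ := by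
  simp only [twist, sum_zeta_shift]
  ring

omit [NeZero N] in
theorem mdiff_twist {F : Cosets N → ℍ → ℂ} (hF : F ∈ formW N k) (r : ℕ) (x : Cosets N) :
    MDiff (twist N r F x) := by
  rw [UpperHalfPlane.mdifferentiable_iff]
  have h : ∀ y, DifferentiableOn ℂ (F y ∘ ofComplex) {z | 0 < z.im} := fun y =>
    UpperHalfPlane.mdifferentiable_iff.1 (mdiff_of_mem hF y)
  refine DifferentiableOn.congr (f := fun z => (N : ℂ)⁻¹ * (∑ m ∈ Finset.range N,
    zetaN N ^ (-((r : ℤ) * m)) * (F (T ^ (-(m : ℤ)) • x) ∘ ofComplex) z) *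
      Complex.exp (2 * π * I * z / N) ^ (-(r : ℤ))) ?_ fun z hz => ?_
  · intro z hz
    refine ((DifferentiableWithinAt.fun_sum fun m _ => ((h _) z hz).const_mul _).const_mul _).mul ?_
    exact DifferentiableWithinAt.zpow (by fun_prop) (Or.inl (Complex.exp_ne_zero _))
  · simp [twist, qRoot, ofComplex_apply_of_im_pos hz]

omit [NeZero N] in
theorem isBigO_twist_num {F : Cosets N → ℍ → ℂ} (hF : F ∈ formW N k) (r : ℕ) (x : Cosets N) :
    (fun τ => (N : ℂ)⁻¹ * ∑ m ∈ Finset.range N,
      zetaN N ^ (-((r : ℤ) * m)) * F (T ^ (-(m : ℤ)) • x) τ) =O[atImInfty] fun _ => (1 : ℝ) :=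
  ((Asymptotics.IsBigO.sum fun (m : ℕ) (_ : m ∈ Finset.range N) =>
    (bdd_of_mem hF (T ^ (-(m : ℤ)) • x)).const_mul_left
      (zetaN N ^ (-((r : ℤ) * m)))).congr_left fun τ => Finset.sum_apply τ _ _).const_mul_left _

theorem norm_qParam_one_eq (τ : ℍ) :
    ‖Function.Periodic.qParam 1 (τ : ℂ)‖ = Real.exp (-2 * π * τ.im) := by
  simpa using Function.Periodic.norm_qParam (1 : ℝ) τ

/-- A periodic holomorphic function tending to `0` at `∞` is `O(q)`. -/
theorem isBigO_qParam_of_periodic {g : ℍ → ℂ} (hper : ∀ τ : ℍ, g ((1 : ℝ) +ᵥ τ) = g τ)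
    (hhol : MDiff g) (hzero : IsZeroAtImInfty g) :
    g =O[atImInfty] fun τ : ℍ => Function.Periodic.qParam 1 (τ : ℂ) := by
  refine Asymptotics.IsBigO.of_norm_right ?_
  simp only [norm_qParam_one_eq]
  simpa using hzero.exp_decay_atImInfty one_pos (periodic_of_vadd_one hper) hhol
    hzero.isBoundedAtImInfty
where
  periodic_of_vadd_one {g : ℍ → ℂ} (hper : ∀ τ : ℍ, g ((1 : ℝ) +ᵥ τ) = g τ) :
      Function.Periodic (g ∘ ofComplex) ((1 : ℝ) : ℂ) := by
    intro w
    by_cases hw : 0 < w.im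
    · have h' : 0 < (w + ((1 : ℝ) : ℂ)).im := by simpa using hw
      simp only [Function.comp_apply, ofComplex_apply_of_im_pos h', ofComplex_apply_of_im_pos hw]
      rw [← hper ⟨w, hw⟩]
      congr 1
      ext
      simp [coe_vadd, add_comm]
    · have h1 : w.im ≤ 0 := not_lt.1 hw
      have h' : (w + ((1 : ℝ) : ℂ)).im ≤ 0 := by simpa using h1
      rw [Function.comp_apply, Function.comp_apply, ofComplex_apply_of_im_nonpos h',
        ofComplex_apply_of_im_nonpos h1]

theorem twist_bounded {F : Cosets N → ℍ → ℂ} (hF : F ∈ formW N k) {r : ℕ} (hr : r < N)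
    (x : Cosets N) : IsBoundedAtImInfty (twist N r F x) := by
  set q : ℍ → ℂ := fun τ => Function.Periodic.qParam 1 (τ : ℂ) with hq
  have hzero : IsZeroAtImInfty (fun τ => q τ * twist N r F x τ) := by
    have hlim : Tendsto (fun τ : ℍ => qRoot N τ ^ (N - r)) atImInfty (𝓝 0) := by
      simpa [zero_pow (by lia : N - r ≠ 0)] using (tendsto_qRoot (N := N)).pow (N - r)
    have ho := (isBigO_twist_num hF r x).mul_isLittleO
      ((Asymptotics.isLittleO_one_iff ℝ).2 hlim)
    simp only [mul_one] at ho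
    refine ((Asymptotics.isLittleO_one_iff ℝ).1 ho).congr fun τ => ?_
    have hne := qRoot_ne_zero (N := N) τ
    rw [hq, twist]
    simp only []
    rw [← qRoot_pow_card (N := N) τ, pow_sub₀ _ hne (by lia), zpow_neg, zpow_natCast]
    ring
  have hper : ∀ τ : ℍ, q ((1 : ℝ) +ᵥ τ) * twist N r F x ((1 : ℝ) +ᵥ τ)
      = q τ * twist N r F x τ := fun τ => by
    rw [twist_vadd_one hF]
    congr 1
    simp [hq, coe_vadd, Function.Periodic.qParam, mul_add, Complex.exp_add,
      Complex.exp_two_pi_mul_I]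
  have hhol : MDiff (fun τ => q τ * twist N r F x τ) := by
    refine MDifferentiable.mul ?_ (mdiff_twist hF r x)
    rw [UpperHalfPlane.mdifferentiable_iff]
    exact (Function.Periodic.differentiable_qParam (h := 1)).differentiableOn.congr
      fun z hz => by simp [hq, ofComplex_apply_of_im_pos hz]
  obtain ⟨C, hC⟩ := (isBigO_qParam_of_periodic hper hhol hzero).bound
  refine Asymptotics.IsBigO.of_bound C ?_
  filter_upwards [hC] with τ hτ
  have hpos : 0 < ‖q τ‖ := norm_pos_iff.2 (Function.Periodic.qParam_ne_zero _)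
  rw [norm_mul, mul_comm C] at hτ
  simpa using le_of_mul_le_mul_left hτ hpos

theorem tendsto_twist {F : Cosets N → ℍ → ℂ} (hF : F ∈ formW N k) {r : ℕ} (hr : r < N)
    (x : Cosets N) : Tendsto (twist N r F x) atImInfty (𝓝 (valueAtInfty (twist N r F x))) := by
  have hper := isBigO_qParam_of_periodic.periodic_of_vadd_one (twist_vadd_one hF r x)
  have hanal := analyticAt_cuspFunction_zero one_pos hper (mdiff_twist hF r x)
    (twist_bounded hF hr x)
  rw [← cuspFunction_apply_zero one_pos hanal hper]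
  exact (hanal.continuousAt.tendsto.comp (qParam_tendsto_atImInfty one_pos)).congr
    fun τ => eq_cuspFunction τ one_ne_zero hper

theorem eq_sum_twist (F : Cosets N → ℍ → ℂ) (x : Cosets N) (τ : ℍ) :
    F x τ = ∑ r ∈ Finset.range N, qRoot N τ ^ (r : ℤ) * twist N r F x τ := by
  have hN : (N : ℂ) ≠ 0 := by exact_mod_cast NeZero.ne N
  have : ∀ r ∈ Finset.range N, qRoot N τ ^ (r : ℤ) * twist N r F x τ = (N : ℂ)⁻¹ *
      ∑ m ∈ Finset.range N, (zetaN N ^ (-(m : ℤ))) ^ r * F (T ^ (-(m : ℤ)) • x) τ := fun r _ => by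
    have hne := qRoot_ne_zero (N := N) τ
    have he : ∀ m : ℕ, (zetaN N ^ (-(m : ℤ))) ^ r = zetaN N ^ (-((r : ℤ) * m)) := fun m => by
      rw [← zpow_natCast, ← zpow_mul]; congr 1; ring
    simp only [he]
    rw [twist, zpow_neg]
    field_simp
  rw [Finset.sum_congr rfl this, ← Finset.mul_sum, Finset.sum_comm]
  simp only [← Finset.sum_mul, zetaN_sum]
  rw [Finset.sum_eq_single 0]
  · simp [hN]
  · intro m hm hm0
    rw [if_neg, zero_mul]
    intro hd
    have h1 := Int.le_of_dvd (by lia) (dvd_neg.1 hd)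
    have h2 := Finset.mem_range.1 hm
    lia
  · intro h; simp [NeZero.ne N] at h

/-- The jet at `∞`. -/
def jet (N : ℕ) (F : Cosets N → ℍ → ℂ) (x : Cosets N) : ℂ :=
  ∑ r ∈ Finset.range N, valueAtInfty (twist N r F x)

/-- The function whose limit at `∞` is the jet. -/
def twistSum (N : ℕ) (F : Cosets N → ℍ → ℂ) (x : Cosets N) (τ : ℍ) : ℂ :=
  ∑ r ∈ Finset.range N, twist N r F x τ

/-- The twisted sum of a form tends to its jet at `∞`. -/
theorem tendsto_twistSum {F : Cosets N → ℍ → ℂ} (hF : F ∈ formW N k) (x : Cosets N) :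
    Tendsto (twistSum N F x) atImInfty (𝓝 (jet N F x)) :=
  tendsto_finsetSum _ fun _ hr => tendsto_twist hF (Finset.mem_range.1 hr) x

variable (N k) in
/-- The jet as a linear map. -/
def jetₗ : formW N k →ₗ[ℂ] Cosets N → ℂ where
  toFun F := jet N F.1
  map_add' F G := funext fun x => tendsto_nhds_unique (tendsto_twistSum (F + G).2 x) <| by
    refine ((tendsto_twistSum F.2 x).add (tendsto_twistSum G.2 x)).congr fun τ => ?_
    simp only [twistSum, twist, Submodule.coe_add, Pi.add_apply, mul_add, Finset.sum_add_distrib,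
      add_mul]
  map_smul' c F := funext fun x => tendsto_nhds_unique (tendsto_twistSum (c • F).2 x) <| by
    refine ((tendsto_twistSum F.2 x).const_mul c).congr fun τ => ?_
    simp only [twistSum, twist, SetLike.val_smul, Pi.smul_apply, smul_eq_mul, Finset.mul_sum,
      Finset.sum_mul]
    exact Finset.sum_congr rfl fun _ _ => Finset.sum_congr rfl fun _ _ => by ring

/-- `jetₗ` is `jet`. -/
@[simp] theorem jetₗ_apply (F : formW N k) : jetₗ N k F = jet N F.1 := rfl

/-- Multiplication by a level-one form scales the jet by its value at `∞`. -/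
theorem jet_mulLevelOne {a : ℤ} (e : ModularForm 𝒮ℒ a) {F : Cosets N → ℍ → ℂ}
    (hF : F ∈ formW N k) : jet N (mulLevelOne e F) = valueAtInfty e • jet N F :=
  funext fun x => tendsto_nhds_unique
    (tendsto_twistSum (mulLevelOne_mem e hF rfl) x) <| by
    refine ((tendsto_levelOne e).mul (tendsto_twistSum hF x)).congr fun τ => ?_
    simp only [twistSum, twist, mulLevelOne_apply, Finset.mul_sum, Finset.sum_mul]
    exact Finset.sum_congr rfl fun _ _ => Finset.sum_congr rfl fun _ _ => by ring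

theorem valueAtInfty_twist_inv_T {F : Cosets N → ℍ → ℂ} (hF : F ∈ formW N k) {r : ℕ} (hr : r < N)
    (x : Cosets N) : valueAtInfty (twist N r F (T⁻¹ • x))
      = zetaN N ^ (r : ℤ) * valueAtInfty (twist N r F x) :=
  tendsto_nhds_unique (tendsto_twist hF hr _) <|
    ((tendsto_twist hF hr x).const_mul _).congr fun τ => (twist_inv_T r F x τ).symm

theorem valueAtInfty_twist_T_zpow {F : Cosets N → ℍ → ℂ} (hF : F ∈ formW N k) {r : ℕ} (hr : r < N)
    (m : ℕ) (x : Cosets N) : valueAtInfty (twist N r F (T ^ (-(m : ℤ)) • x))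
      = zetaN N ^ ((r : ℤ) * m) * valueAtInfty (twist N r F x) := by
  induction m with
  | zero => simp
  | succ m ih =>
    have : T ^ (-((m + 1 : ℕ) : ℤ)) • x = T⁻¹ • T ^ (-(m : ℤ)) • x := by
      rw [smul_smul, ← zpow_neg_one, ← zpow_add]; congr 2; push_cast; ring
    rw [this, valueAtInfty_twist_inv_T hF hr, ih, ← mul_assoc, ← zpow_add₀ zetaN_ne_zero]
    congr 2
    push_cast
    ring

/-- The jet determines the value at `∞` of each twist. -/
theorem valueAtInfty_twist_eq {F : Cosets N → ℍ → ℂ} (hF : F ∈ formW N k) {s : ℕ} (hs : s < N)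
    (x : Cosets N) : (N : ℂ) * valueAtInfty (twist N s F x)
      = ∑ m ∈ Finset.range N, zetaN N ^ (-((s : ℤ) * m)) * jet N F (T ^ (-(m : ℤ)) • x) := by
  have h : ∀ m r : ℕ, r ∈ Finset.range N →
      zetaN N ^ (-((s : ℤ) * m)) * valueAtInfty (twist N r F (T ^ (-(m : ℤ)) • x))
        = (zetaN N ^ ((r : ℤ) - s)) ^ m * valueAtInfty (twist N r F x) := fun m r hr => by
    rw [valueAtInfty_twist_T_zpow hF (Finset.mem_range.1 hr), ← mul_assoc,
      ← zpow_add₀ zetaN_ne_zero, ← zpow_natCast (zetaN N ^ _) m, ← zpow_mul]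
    congr 2
    ring
  simp only [jet, Finset.mul_sum]
  rw [Finset.sum_congr rfl fun m _ => Finset.sum_congr rfl fun r hr => h m r hr, Finset.sum_comm]
  simp only [← Finset.sum_mul, zetaN_sum]
  rw [Finset.sum_eq_single s]
  · simp
  · intro r hr hrs
    rw [if_neg, zero_mul]
    rintro ⟨j, hj⟩
    have hr' := Finset.mem_range.1 hr
    rcases lt_trichotomy j 0 with h | rfl | h <;> [nlinarith; lia; nlinarith]
  · intro h; exact absurd (Finset.mem_range.2 hs) h

/-- The constant-term projection: average over the action of `T`. -/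
def fixedProj (N : ℕ) : (Cosets N → ℂ) →ₗ[ℂ] Cosets N → ℂ where
  toFun v x := (N : ℂ)⁻¹ * ∑ m ∈ Finset.range N, v (T ^ (-(m : ℤ)) • x)
  map_add' v w := funext fun x => by simp [Finset.sum_add_distrib, mul_add]
  map_smul' c v := funext fun x => by
    simp only [Pi.smul_apply, smul_eq_mul, RingHom.id_apply, ← Finset.mul_sum]
    ring

theorem tendsto_constantTerm {F : Cosets N → ℍ → ℂ} (hF : F ∈ formW N k) (x : Cosets N) :
    Tendsto (F x) atImInfty (𝓝 (fixedProj N (jet N F) x)) := by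
  have hv : fixedProj N (jet N F) x = valueAtInfty (twist N 0 F x) := by
    have := valueAtInfty_twist_eq hF (Nat.pos_of_ne_zero (NeZero.ne N)) x
    simp only [Nat.cast_zero, zero_mul, neg_zero, zpow_zero, one_mul] at this
    show (N : ℂ)⁻¹ * _ = _
    rw [← this, inv_mul_cancel_left₀ (by exact_mod_cast NeZero.ne N)]
  rw [hv]
  have : Tendsto (fun τ => ∑ r ∈ Finset.range N, qRoot N τ ^ (r : ℤ) * twist N r F x τ)
      atImInfty (𝓝 (∑ r ∈ Finset.range N,
        (0 : ℂ) ^ r * valueAtInfty (twist N r F x))) := by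
    refine tendsto_finsetSum _ fun r hr => ?_
    simp only [zpow_natCast]
    exact ((tendsto_qRoot (N := N)).pow r).mul (tendsto_twist hF (Finset.mem_range.1 hr) x)
  rw [Finset.sum_eq_single 0 (fun r _ hr => by rw [zero_pow hr, zero_mul])
    (fun h => absurd (Finset.mem_range.2 (Nat.pos_of_ne_zero (NeZero.ne N))) h), pow_zero,
    one_mul] at this
  exact this.congr fun τ => (eq_sum_twist F x τ).symm

/-- A form is cuspidal iff the projection of its jet vanishes. -/
theorem mem_cuspW_iff {F : Cosets N → ℍ → ℂ} (hF : F ∈ formW N k) :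
    F ∈ cuspW N k ↔ fixedProj N (jet N F) = 0 := by
  refine ⟨fun h => funext fun x => tendsto_nhds_unique (tendsto_constantTerm hF x) (h.2 x),
    fun h => ⟨hF, fun x => ?_⟩⟩
  have := tendsto_constantTerm hF x
  rwa [h] at this

theorem isBigO_qParam_discriminant :
    (fun τ : ℍ => Function.Periodic.qParam 1 (τ : ℂ)) =O[atImInfty] ModularForm.discriminant := by
  refine Asymptotics.IsBigO.of_norm_left ?_
  simp only [norm_qParam_one_eq]
  exact ModularForm.exp_isBigO_discriminant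

/-- A form with vanishing jet is divisible by `Δ`. -/
theorem div_discriminant_mem {F : Cosets N → ℍ → ℂ} (hF : F ∈ formW N k) (h : jet N F = 0) :
    (fun x τ => F x τ / ModularForm.discriminant τ) ∈ formW N (k - 12) := by
  refine ⟨fun x => (mdiff_of_mem hF x).div CuspForm.discriminant.holo'
    ModularForm.discriminant_ne_zero, fun γ x => ?_, fun x => ?_⟩
  · have hγ : (γ : GL (Fin 2) ℝ) ∈ 𝒮ℒ := ⟨γ, rfl⟩
    change (F x / ⇑CuspForm.discriminant) ∣[k - 12] γ = F (γ⁻¹ • x) / ⇑CuspForm.discriminant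
    rw [ModularForm.div_slash_SL2, slash_of_mem hF]
    congr 1
    exact SlashInvariantFormClass.slash_action_eq CuspForm.discriminant _ hγ
  · have hO : F x =O[atImInfty] fun τ : ℍ => Function.Periodic.qParam 1 (τ : ℂ) := by
      have hsum : (fun τ => ∑ r ∈ Finset.range N, qRoot N τ ^ (r : ℤ) * twist N r F x τ)
          =O[atImInfty] fun τ : ℍ => Function.Periodic.qParam 1 (τ : ℂ) := by
        refine (Asymptotics.IsBigO.sum (A := fun (r : ℕ) (τ : ℍ) =>
          qRoot N τ ^ (r : ℤ) * twist N r F x τ) fun r hr => ?_).congr_left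
            fun τ => Finset.sum_apply τ _ _
        have hr' := Finset.mem_range.1 hr
        have h0 : valueAtInfty (twist N r F x) = 0 := by
          have := valueAtInfty_twist_eq hF hr' x
          simp only [h, Pi.zero_apply, mul_zero, Finset.sum_const_zero] at this
          exact (mul_eq_zero.1 this).resolve_left (by exact_mod_cast NeZero.ne N)
        have hzero : IsZeroAtImInfty (twist N r F x) := by
          have h1 := tendsto_twist hF hr' x
          rw [h0] at h1
          exact h1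
        have h1 : (fun τ => qRoot N τ ^ (r : ℤ)) =O[atImInfty] fun _ => (1 : ℂ) := by
          simp only [zpow_natCast]
          exact ((tendsto_qRoot (N := N)).pow r).isBigO_one ℂ
        simpa using h1.mul (isBigO_qParam_of_periodic (twist_vadd_one hF r x)
          (mdiff_twist hF r x) hzero)
      exact hsum.congr_left fun τ => (eq_sum_twist F x τ).symm
    rw [IsBoundedAtImInfty, BoundedAtFilter]
    exact (Asymptotics.div_isBoundedUnder_of_isBigO
      (hO.trans isBigO_qParam_discriminant)).isBigO_one ℝ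

end Fermat.Agent.DimFormula
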