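import Fermat.Agent.DimFormula.Basic
import Mathlib.Analysis.SpecialFunctions.Elliptic.Weierstrass
import Mathlib.NumberTheory.ModularForms.EisensteinSeries.QExpansion

/-!
# Forms separate cosets

The values at a point of forms on `Γ₀(N)` of all weights span all vectors indexed by the cosets.
Two cosets are separated by a level-`N` Eisenstein series, as the Laurent expansion of `℘`
determines a lattice.
-/

set_option autoImplicit false

noncomputable section

open UpperHalfPlane hiding I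
open CongruenceSubgroup Fermat.Agent.EichlerShimura Matrix.SpecialLinearGroup
open scoped MatrixGroups ModularForm Manifold Pointwise Topology

namespace Fermat.Agent.DimFormula

/-- Two lattices with the same Eisenstein sums are equal. -/
theorem lattice_eq_of_G_eq (L L' : PeriodPair) (h : ∀ n, 3 ≤ n → L.G n = L'.G n) :
    L.lattice = L'.lattice := by
  -- the expansions at `0` of `℘ - z⁻²` agree
  have hser : (FormalMultilinearSeries.ofScalars (𝕜 := ℂ) ℂ fun i : ℕ =>
        if i = 0 then L.weierstrassPExcept 0 0 else (i + 1) * L.sumInvPow 0 (i + 2)) =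
      FormalMultilinearSeries.ofScalars (𝕜 := ℂ) ℂ fun i : ℕ =>
        if i = 0 then L'.weierstrassPExcept 0 0 else (i + 1) * L'.sumInvPow 0 (i + 2) := by
    congr 1
    funext i
    rcases i with _ | i
    · simp
    · simp [h (i + 1 + 2) (by omega)]
  have hnear : ∀ᶠ z in 𝓝 (0 : ℂ), L.weierstrassPExcept 0 z = L'.weierstrassPExcept 0 z := by
    have h1 := L.hasFPowerSeriesAt_weierstrassPExcept 0
    have h2 := L'.hasFPowerSeriesAt_weierstrassPExcept 0
    rw [hser] at h1
    have h12 := h1.sub h2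
    rw [sub_self] at h12
    filter_upwards [h12.eventually_eq_zero] with z hz
    exact sub_eq_zero.mp hz
  have hP : ∀ᶠ z in 𝓝[≠] (0 : ℂ), L.weierstrassP z = L'.weierstrassP z := by
    filter_upwards [hnear.filter_mono nhdsWithin_le_nhds] with z hz
    have e1 := L.weierstrassPExcept_add ⟨0, zero_mem _⟩ z
    have e2 := L'.weierstrassPExcept_add ⟨0, zero_mem _⟩ z
    simp only at e1 e2
    rw [← e1, ← e2, hz]
  -- hence they agree off the two lattices
  set s : Set ℂ := (L.lattice : Set ℂ) ∪ L'.lattice with hs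
  have hcount : s.Countable := by
    refine Set.Countable.union ?_ ?_
    · exact Set.countable_coe_iff.mp (inferInstanceAs (Countable L.lattice))
    · exact Set.countable_coe_iff.mp (inferInstanceAs (Countable L'.lattice))
  have hopen : IsOpen sᶜ := (L.isClosed_lattice.union L'.isClosed_lattice).isOpen_compl
  have hconn : IsPreconnected sᶜ :=
    (hcount.isConnected_compl_of_one_lt_rank (by simp [Complex.rank_real_complex])).isPreconnected
  have han : AnalyticOnNhd ℂ L.weierstrassP sᶜ :=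
    L.analyticOnNhd_weierstrassP.mono fun z hz hzL => hz (Or.inl hzL)
  have han' : AnalyticOnNhd ℂ L'.weierstrassP sᶜ :=
    L'.analyticOnNhd_weierstrassP.mono fun z hz hzL => hz (Or.inr hzL)
  have hoff : ∀ (p : ℂ), ∀ᶠ z in 𝓝[≠] p, z ∈ sᶜ := fun p => by
    have hL := L.compl_lattice_sdiff_singleton_mem_nhds p
    have hL' := L'.compl_lattice_sdiff_singleton_mem_nhds p
    filter_upwards [mem_nhdsWithin_of_mem_nhds hL, mem_nhdsWithin_of_mem_nhds hL',
      self_mem_nhdsWithin] with z hz hz' hzp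
    rintro (hzs | hzs)
    · exact hz ⟨hzs, hzp⟩
    · exact hz' ⟨hzs, hzp⟩
  have heq : Set.EqOn L.weierstrassP L'.weierstrassP sᶜ := by
    obtain ⟨ε, hε, hball⟩ := Metric.mem_nhdsWithin_iff.mp ((hoff 0).and hP)
    obtain ⟨z₀, hz₀⟩ : ∃ z₀ : ℂ, z₀ ∈ Metric.ball 0 ε ∩ {(0 : ℂ)}ᶜ :=
      Filter.nonempty_of_mem (f := 𝓝[≠] (0 : ℂ))
        (Filter.inter_mem (mem_nhdsWithin_of_mem_nhds (Metric.ball_mem_nhds _ hε))
          self_mem_nhdsWithin)
    refine han.eqOn_of_preconnected_of_eventuallyEq han' hconn (hball hz₀).1 ?_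
    refine Filter.eventually_of_mem
      ((Metric.isOpen_ball.inter isOpen_compl_singleton).mem_nhds hz₀) fun z hz => (hball hz).2
  -- so they have the same poles
  have key : ∀ p : ℂ,
      meromorphicOrderAt L.weierstrassP p = meromorphicOrderAt L'.weierstrassP p :=
    fun p =>
    meromorphicOrderAt_congr (by filter_upwards [hoff p] with z hz using heq hz)
  ext p
  constructor <;> intro hp <;> by_contra hp'
  · have h1 := (L'.analyticOnNhd_weierstrassP p hp').meromorphicOrderAt_nonneg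
    rw [← key p, L.order_weierstrassP p hp] at h1
    exact absurd h1 (by decide)
  · have h1 := (L.analyticOnNhd_weierstrassP p hp').meromorphicOrderAt_nonneg
    rw [key p, L'.order_weierstrassP p hp] at h1
    exact absurd h1 (by decide)

variable {N : ℕ}

theorem mul_add_eq_zero {z : ℍ} {a b : ℝ} (h : (a : ℂ) * z + b = 0) : a = 0 ∧ b = 0 := by
  have him := congrArg Complex.im h
  have hre := congrArg Complex.re h
  simp [ne_of_gt z.im_pos] at him
  simp [him] at hre
  exact ⟨him, hre⟩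

/-- The pair of periods `(N (a z + b), c z + d)` attached to a matrix of `SL(2, ℤ)`. -/
def cosetPair (N : ℕ) [NeZero N] (g : SL(2, ℤ)) (z : ℍ) : PeriodPair where
  ω₁ := N * (g 0 0 * z + g 0 1)
  ω₂ := g 1 0 * z + g 1 1
  indep := by
    rw [LinearIndependent.pair_iff]
    intro s t hst
    simp only [Complex.real_smul] at hst
    obtain ⟨h0, h1⟩ := mul_add_eq_zero (z := z) (a := s * N * g 0 0 + t * g 1 0)
      (b := s * N * g 0 1 + t * g 1 1) (by push_cast; linear_combination hst)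
    have hdet : (g 0 0 : ℝ) * g 1 1 - g 0 1 * g 1 0 = 1 := by
      exact_mod_cast (Matrix.det_fin_two g.1).symm.trans g.2
    have hs : s * N = 0 := by
      linear_combination (g 1 1 : ℝ) * h0 - (g 1 0 : ℝ) * h1 - (s * N) * hdet
    have ht : t = 0 := by
      linear_combination -(g 0 1 : ℝ) * h0 + (g 0 0 : ℝ) * h1 - t * hdet
    exact ⟨by simpa [NeZero.ne N] using hs, ht⟩

theorem mem_Gamma0_of_lattice_eq [NeZero N] {g h : SL(2, ℤ)} {z : ℍ}
    (he : (cosetPair N g z).lattice = (cosetPair N h z).lattice) : h * g⁻¹ ∈ Gamma0 N := by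
  have hm : (cosetPair N h z).ω₂ ∈ (cosetPair N g z).lattice :=
    he ▸ (cosetPair N h z).ω₂_mem_lattice
  obtain ⟨m, l, hml⟩ := PeriodPair.mem_lattice.mp hm
  simp only [cosetPair] at hml
  obtain ⟨h0, h1⟩ := mul_add_eq_zero (z := z) (a := m * N * g 0 0 + l * g 1 0 - h 1 0)
    (b := m * N * g 0 1 + l * g 1 1 - h 1 1) (by push_cast; linear_combination hml)
  have e0 : m * N * g 0 0 + l * g 1 0 - h 1 0 = 0 := by exact_mod_cast h0
  have e1 : m * N * g 0 1 + l * g 1 1 - h 1 1 = 0 := by exact_mod_cast h1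
  have hdet : g 0 0 * g 1 1 - g 0 1 * g 1 0 = 1 := (Matrix.det_fin_two g.1).symm.trans g.2
  have hentry : (h * g⁻¹) 1 0 = h 1 0 * g 1 1 - h 1 1 * g 1 0 := by
    rw [Matrix.SpecialLinearGroup.coe_mul, Matrix.mul_apply, Fin.sum_univ_two,
      Matrix.SpecialLinearGroup.SL2_inv_expl]
    simp
    ring
  have hval : (h * g⁻¹) 1 0 = m * N := by
    rw [hentry]
    linear_combination -(g 1 1) * e0 + (g 1 0) * e1 + (m * N) * hdet
  rw [Gamma0_mem, hval]
  simp

/-- `diag(N, 1)`. -/
def levelMat (N : ℕ) [NeZero N] : GL (Fin 2) ℝ :=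
  .mkOfDetNeZero !![(N : ℝ), 0; 0, 1] (by simp [Matrix.det_fin_two, NeZero.ne N])

theorem Gamma0_le_conj [NeZero N] :
    ((Gamma0 N : Subgroup SL(2, ℤ)) : Subgroup (GL (Fin 2) ℝ)) ≤
      ConjAct.toConjAct (levelMat N)⁻¹ • (𝒮ℒ : Subgroup (GL (Fin 2) ℝ)) := by
  rintro _ ⟨γ, hγ, rfl⟩
  obtain ⟨c, hc⟩ : (N : ℤ) ∣ γ 1 0 := (ZMod.intCast_zmod_eq_zero_iff_dvd _ _).mp (Gamma0_mem.mp hγ)
  rw [Subgroup.mem_pointwise_smul_iff_inv_smul_mem, ← ConjAct.toConjAct_inv, inv_inv,
    ConjAct.toConjAct_smul]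
  refine ⟨⟨!![γ 0 0, N * γ 0 1; c, γ 1 1], ?_⟩, ?_⟩
  · rw [Matrix.det_fin_two_of]
    linear_combination (Matrix.det_fin_two γ.1).symm.trans γ.2 + (γ 0 1) * hc
  · rw [eq_mul_inv_iff_mul_eq]
    ext i j
    fin_cases i <;> fin_cases j <;>
      simp [levelMat, Matrix.mul_apply, Fin.sum_univ_two, hc, mul_comm]

/-- The level `N` Eisenstein series `E_n(N z)`, up to a scalar. -/
def levelEis (N : ℕ) [NeZero N] {n : ℕ} (hn : 3 ≤ n) : ModularForm (Gamma0 N) n where
  toFun := ModularForm.translate (ModularForm.E hn) (levelMat N)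
  slash_action_eq' γ hγ :=
    (ModularForm.translate (ModularForm.E hn) (levelMat N)).slash_action_eq' γ (Gamma0_le_conj hγ)
  holo' := (ModularForm.translate (ModularForm.E hn) (levelMat N)).holo'
  bdd_at_cusps' hc :=
    (ModularForm.translate (ModularForm.E hn) (levelMat N)).bdd_at_cusps' (hc.mono Gamma0_le_conj)

theorem G_cosetPair_eq [NeZero N] (g : SL(2, ℤ)) (z : ℍ) {n : ℕ} (hn : 3 ≤ n) :
    (cosetPair N g z).G n =
      (riemannZeta n * 2 / (N : ℂ) ^ ((n : ℤ) - 1)) * ((⇑(levelEis N hn) ∣[(n : ℤ)] g) z) := by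
  set L := cosetPair N g z
  set M : GL (Fin 2) ℝ := levelMat N * mapGL ℝ g with hM
  have hN : (0 : ℝ) < N := by exact_mod_cast Nat.pos_of_ne_zero (NeZero.ne N)
  have hdet : M.det.val = N := by
    simp [hM, levelMat, Matrix.GeneralLinearGroup.val_det_apply,
      Matrix.det_fin_two_of]
  have hden : denom M z = L.ω₂ := by
    simp [hM, L, cosetPair, denom, levelMat, Matrix.mul_apply, Fin.sum_univ_two]
  have hnum : num M z = L.ω₁ := by
    simp [hM, L, cosetPair, num, levelMat, Matrix.mul_apply, Fin.sum_univ_two]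
    ring
  have hcoe : ((M • z : ℍ) : ℂ) = L.ω₁ / L.ω₂ := by
    rw [coe_smul_of_det_pos (by rw [hdet]; exact hN), hden, hnum]
  have hval : (⇑(levelEis N hn) ∣[(n : ℤ)] g) z =
      ModularForm.E hn (M • z) * (N : ℂ) ^ ((n : ℤ) - 1) * L.ω₂ ^ (-(n : ℤ)) := by
    show ((⇑(ModularForm.E hn) ∣[(n : ℤ)] levelMat N) ∣[(n : ℤ)] (mapGL ℝ g)) z = _
    rw [← SlashAction.slash_mul, ← hM, ModularForm.slash_apply, σ, if_pos (by rw [hdet]; exact hN),
      hdet, hden]
    simp [abs_of_pos hN]
  have hω₂ : L.ω₂ ≠ 0 := hden ▸ denom_ne_zero _ _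
  have hsum : L.G n = L.ω₂ ^ (-(n : ℤ)) *
      ∑' v : Fin 2 → ℤ, EisensteinSeries.eisSummand n v (M • z) := by
    rw [← tsum_mul_left, PeriodPair.G,
      ← ((finTwoArrowEquiv ℤ).trans L.latticeEquivProd.symm.toEquiv).tsum_eq]
    congr 1
    funext v
    simp only [Equiv.trans_apply, finTwoArrowEquiv_apply, piFinTwoEquiv_apply,
        Equiv.toFun_as_coe, LinearEquiv.coe_toEquiv,
      PeriodPair.latticeEquiv_symm_apply, EisensteinSeries.eisSummand, hcoe]
    rw [← mul_zpow, show L.ω₂ * ((v 0 : ℂ) * (L.ω₁ / L.ω₂) + v 1) =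
      v 0 * L.ω₁ + v 1 * L.ω₂ by field_simp, zpow_neg, zpow_natCast]
  have hE : ModularForm.E hn (M • z) =
      (1 / 2 : ℂ) * eisensteinSeries (0 : Fin 2 → ZMod 1) n (M • z) := rfl
  rw [hsum, tsum_eisSummand_eq_riemannZeta_mul_eisensteinSeries hn, hval, hE]
  have : (N : ℂ) ^ ((n : ℤ) - 1) ≠ 0 := zpow_ne_zero _ (by exact_mod_cast NeZero.ne N)
  field_simp

/-- Forms separate the cosets at every point. -/
theorem exists_form_ne [NeZero N] {x y : Cosets N} (hxy : x ≠ y) (z : ℍ) :
    ∃ (k : ℤ), ∃ F ∈ formW N k, F x z ≠ F y z := by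
  induction x using QuotientGroup.induction_on with
  | H g =>
  induction y using QuotientGroup.induction_on with
  | H h =>
  by_contra hcon
  simp only [not_exists, not_and, not_not] at hcon
  apply hxy
  have hL : (cosetPair N g⁻¹ z).lattice = (cosetPair N h⁻¹ z).lattice := by
    refine lattice_eq_of_G_eq _ _ fun n hn => ?_
    rw [G_cosetPair_eq _ _ hn, G_cosetPair_eq _ _ hn]
    have := hcon n _ (modularFormEquiv N n (levelEis N hn)).2
    exact congrArg _ this
  have hmem := mem_Gamma0_of_lattice_eq hL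
  rw [inv_inv] at hmem
  exact (QuotientGroup.eq.mpr hmem).symm

/-- The values at a point of forms of all weights. -/
def valueMonoid (N : ℕ) (z : ℍ) : Submonoid (Cosets N → ℂ) where
  carrier := {v | ∃ (k : ℤ), ∃ F ∈ formW N k, v = fun x => F x z}
  one_mem' := ⟨0, fun _ => 1, ⟨fun _ => mdifferentiable_const,
    fun γ _ => ModularForm.is_invariant_one γ, fun _ => Filter.const_boundedAtFilter _ 1⟩, rfl⟩
  mul_mem' := by
    rintro _ _ ⟨k, F, hF, rfl⟩ ⟨l, G, hG, rfl⟩
    refine ⟨k + l, fun x => F x * G x, ⟨fun x => (hF.1 x).mul (hG.1 x), fun γ x => ?_,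
      fun x => (hF.2.2 x).mul (hG.2.2 x)⟩, rfl⟩
    rw [ModularForm.mul_slash_SL2, hF.2.1, hG.2.1]

/-- The values at any point of forms on `Γ₀(N)` of all weights span everything. -/
theorem span_values_eq_top (N : ℕ) [NeZero N] (z : ℍ) :
    Submodule.span ℂ {v : Cosets N → ℂ | ∃ (k : ℤ), ∃ F ∈ formW N k, v = fun x => F x z} = ⊤ := by
  classical
  have : Fintype (Cosets N) := Fintype.ofFinite _
  set S := (valueMonoid N z : Set (Cosets N → ℂ))
  have hA : ∀ v ∈ Algebra.adjoin ℂ S, v ∈ Submodule.span ℂ S := fun v hv => by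
    have : v ∈ (Algebra.adjoin ℂ S).toSubmodule := hv
    rwa [Algebra.adjoin_eq_span, Submonoid.closure_eq] at this
  refine eq_top_iff.mpr fun v _ => hA v ?_
  have hdelta : ∀ x : Cosets N, Pi.single x (1 : ℂ) ∈ Algebra.adjoin ℂ S := by
    intro x
    choose k F hF hne using fun y : {y : Cosets N // y ≠ x} => exists_form_ne y.2 z
    set P : Cosets N → ℂ := ∏ y : {y : Cosets N // y ≠ x},
      ((fun w => F y w z) - algebraMap ℂ (Cosets N → ℂ) (F y y.1 z)) with hP
    have hPmem : P ∈ Algebra.adjoin ℂ S := Subalgebra.prod_mem _ fun y _ =>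
      sub_mem (Algebra.subset_adjoin ⟨_, _, hF y, rfl⟩) (Subalgebra.algebraMap_mem _ _)
    have hPx : P x ≠ 0 := by
      simp only [hP, Finset.prod_apply, Pi.sub_apply, Finset.prod_ne_zero_iff]
      intro y _
      simpa [sub_eq_zero] using (hne y).symm
    have : Pi.single x (1 : ℂ) = (P x)⁻¹ • P := by
      funext w
      rcases eq_or_ne w x with rfl | hw
      · simp [hPx]
      · have hPw : P w = 0 := by
          rw [hP, Finset.prod_apply]
          exact Finset.prod_eq_zero (Finset.mem_univ ⟨w, hw⟩) (by simp)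
        rw [Pi.single_eq_of_ne hw, Pi.smul_apply, hPw, smul_zero]
    rw [this]
    exact Subalgebra.smul_mem _ hPmem _
  rw [pi_eq_sum_univ' v]
  exact Subalgebra.sum_mem _ fun x _ => Subalgebra.smul_mem _ (hdelta x) _

end Fermat.Agent.DimFormula
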