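import Fermat.Agent.DimFormula.Basic
import Fermat.Agent.DimFormula.LevelOne
import Fermat.Agent.DimFormula.Infinity
import Fermat.Agent.DimFormula.Separation
import Mathlib.LinearAlgebra.Basis.VectorSpace

/-!
# Freeness over the level-one forms

The equivariant vectors form a free module over the level-one forms, on a finite family `gen`
of cardinality `index Γ₀(N)`.
-/

set_option autoImplicit false

noncomputable section

open UpperHalfPlane hiding I
open CongruenceSubgroup Fermat.Agent.EichlerShimura Filter Topology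
open scoped MatrixGroups ModularForm Manifold

namespace Fermat.Agent.DimFormula

variable (N : ℕ) [NeZero N] (k : ℤ)

/-- The ambient space of vectors. -/
abbrev Vec := Cosets N → ℍ → ℂ

variable {N} {k}

omit [NeZero N] in
theorem eq_zero_of_odd {F : Vec N} (hF : F ∈ formW N k) (hk : Odd k) : F = 0 := by
  funext x τ
  have h := apply_smul_of_mem hF (-1) x τ
  rw [ModularGroup.SL_neg_smul, one_smul, inv_neg, inv_one, Gamma0Cosets.neg_one_smul] at h
  have hd : denom (-1 : SL(2, ℤ)) τ = -1 := by simp [denom]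
  rw [hd, (Odd.neg hk).neg_one_zpow] at h
  show F x τ = 0
  linear_combination (-1 / 2 : ℂ) * h

/-- There are no nonzero forms of negative weight. -/
theorem eq_zero_of_neg {F : Vec N} (hF : F ∈ formW N k) (hk : k < 0) : F = 0 := by
  have h := ModularForm.isZero_of_neg_weight hk ((modularFormEquiv N k).symm ⟨F, hF⟩)
  have h' := congrArg (modularFormEquiv N k) h
  rw [LinearEquiv.apply_symm_apply, map_zero] at h'
  exact congrArg Subtype.val h'

instance finiteDimensional_formW (k : ℤ) : FiniteDimensional ℂ (formW N k) := by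
  suffices ∀ n : ℕ, ∀ k : ℤ, k < n → FiniteDimensional ℂ (formW N k) from
    this (k.toNat + 1) k (by lia)
  intro n
  induction n with
  | zero =>
    intro k hk
    have : formW N k = ⊥ := (Submodule.eq_bot_iff _).2 fun F hF =>
        eq_zero_of_neg hF (by simpa using hk)
    rw [this]; infer_instance
  | succ n ih =>
    intro k hk
    have := ih (k - 12) (by lia)
    let div : LinearMap.ker (jetₗ N k) →ₗ[ℂ] formW N (k - 12) :=
      { toFun := fun F => ⟨fun x τ => F.1.1 x τ / ModularForm.discriminant τ,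
          div_discriminant_mem F.1.2 F.2⟩
        map_add' := fun F G => by ext x τ; simp [add_div]
        map_smul' := fun c F => by ext x τ; simp [mul_div_assoc] }
    have hdiv : Function.Injective div := fun F G h => by
      refine Subtype.ext (Subtype.ext (funext fun x => funext fun τ => ?_))
      have := congrFun (congrFun (congrArg Subtype.val h) x) τ
      exact (div_left_inj' (ModularForm.discriminant_ne_zero τ)).1 this
    have := Module.Finite.of_injective div hdiv
    have : Module.Finite ℂ (formW N k ⧸ LinearMap.ker (jetₗ N k)) :=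
      Module.Finite.equiv (jetₗ N k).quotKerEquivRange.symm
    exact Module.Finite.of_submodule_quotient (LinearMap.ker (jetₗ N k))

/-- The dimension grows by at most the index from weight `k - 12` to weight `k`. -/
theorem finrank_formW_le (k : ℤ) :
    Module.finrank ℂ (formW N k) ≤ Module.finrank ℂ (formW N (k - 12)) + Nat.card (Cosets N) := by
  let div : LinearMap.ker (jetₗ N k) →ₗ[ℂ] formW N (k - 12) :=
    { toFun := fun F => ⟨fun x τ => F.1.1 x τ / ModularForm.discriminant τ,
        div_discriminant_mem F.1.2 F.2⟩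
      map_add' := fun F G => by ext x τ; simp [add_div]
      map_smul' := fun c F => by ext x τ; simp [mul_div_assoc] }
  have hdiv : Function.Injective div := fun F G h => by
    refine Subtype.ext (Subtype.ext (funext fun x => funext fun τ => ?_))
    have := congrFun (congrFun (congrArg Subtype.val h) x) τ
    exact (div_left_inj' (ModularForm.discriminant_ne_zero τ)).1 this
  have : Fintype (Cosets N) := Fintype.ofFinite _
  have h1 := (jetₗ N k).finrank_range_add_finrank_ker
  have h2 := LinearMap.finrank_le_finrank_of_injective hdiv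
  have h3 := Submodule.finrank_le (LinearMap.range (jetₗ N k))
  rw [Module.finrank_pi] at h3
  rw [Nat.card_eq_fintype_card]
  lia

/-- Multiplication by a level-one form as a linear map. -/
def mulVecₗ {a : ℤ} (e : ModularForm 𝒮ℒ a) : Vec N →ₗ[ℂ] Vec N where
  toFun := mulLevelOne e
  map_add' F G := by ext x τ; simp [mul_add]
  map_smul' c F := by ext x τ; simp; ring

variable (N) in
/-- `E₄ W_{k-4} + E₆ W_{k-6}`. -/
def decompW (k : ℤ) : Submodule ℂ (Vec N) :=
  (formW N (k - 4)).map (mulVecₗ ModularForm.E₄) ⊔ (formW N (k - 6)).map (mulVecₗ ModularForm.E₆)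

omit [NeZero N] in
theorem decompW_le (k : ℤ) : decompW N k ≤ formW N k := by
  refine sup_le ?_ ?_ <;> rintro _ ⟨F, hF, rfl⟩ <;> exact mulLevelOne_mem _ hF (by ring)

omit [NeZero N] in
theorem exists_complW (k : ℤ) :
    ∃ C : Submodule ℂ (Vec N), C ≤ formW N k ∧ decompW N k ⊓ C = ⊥ ∧
      decompW N k ⊔ C = formW N k := by
  obtain ⟨q, hq⟩ := Submodule.exists_isCompl (decompW N k)
  refine ⟨q ⊓ formW N k, inf_le_right, ?_, ?_⟩
  · rw [← inf_assoc, hq.inf_eq_bot, bot_inf_eq]
  · rw [← sup_inf_assoc_of_le q (decompW_le k), hq.sup_eq_top, top_inf_eq]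

variable (N) in
/-- A complement of `E₄ W_{k-4} + E₆ W_{k-6}` in `W_k`. -/
def complW (k : ℤ) : Submodule ℂ (Vec N) := (exists_complW (N := N) k).choose

omit [NeZero N] in
theorem complW_le (k : ℤ) : complW N k ≤ formW N k := (exists_complW k).choose_spec.1

omit [NeZero N] in
theorem disjoint_complW (k : ℤ) : decompW N k ⊓ complW N k = ⊥ :=
  (exists_complW k).choose_spec.2.1

omit [NeZero N] in
theorem sup_complW (k : ℤ) : decompW N k ⊔ complW N k = formW N k :=
  (exists_complW k).choose_spec.2.2

instance finiteDimensional_complW (k : ℤ) : FiniteDimensional ℂ (complW N k) :=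
  Submodule.finiteDimensional_of_le (complW_le k)

variable (N) in
/-- The index type of the generators. -/
abbrev GenIdx : Type := (k : ℤ) × Fin (Module.finrank ℂ (complW N k))

/-- The generators. -/
def gen (j : GenIdx N) : Vec N := (Module.finBasis ℂ (complW N j.1) j.2).1

/-- A generator is a form of its weight. -/
theorem gen_mem (j : GenIdx N) : gen j ∈ formW N j.1 :=
  complW_le _ (Module.finBasis ℂ (complW N j.1) j.2).2

theorem complW_eq_bot_of_formW {k : ℤ} (h : ∀ F ∈ formW N k, F = 0) :
    Module.finrank ℂ (complW N k) = 0 := by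
  rw [Submodule.finrank_eq_zero]
  exact (Submodule.eq_bot_iff _).2 fun F hF => h F (complW_le k hF)

/-- The weights of the generators are nonnegative. -/
theorem wt_nonneg (j : GenIdx N) : 0 ≤ j.1 := by
  by_contra h
  have := complW_eq_bot_of_formW (N := N) fun F hF => eq_zero_of_neg hF (not_le.1 h)
  exact absurd j.2.isLt (by lia)

/-- The weights of the generators are even. -/
theorem wt_even (j : GenIdx N) : Even j.1 := by
  by_contra h
  have := complW_eq_bot_of_formW (N := N) fun F hF => eq_zero_of_odd hF (Int.not_even_iff_odd.1 h)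
  exact absurd j.2.isLt (by lia)

variable (N) in
/-- Generators of weight at most `k`. -/
def idxLe (k : ℤ) : Finset (GenIdx N) := (Finset.Icc 0 k).sigma fun _ => Finset.univ

theorem mem_idxLe {k : ℤ} {j : GenIdx N} : j ∈ idxLe N k ↔ j.1 ≤ k := by
  simp [idxLe, wt_nonneg j]

variable (N) in
/-- Combinations `∑ e_j · gen j` of weight `k`. -/
def comb (k : ℤ) : (∀ j : GenIdx N, ModularForm 𝒮ℒ (k - j.1)) →ₗ[ℂ] Vec N where
  toFun e := ∑ j ∈ idxLe N k, mulLevelOne (e j) (gen j)
  map_add' e f := by
    rw [← Finset.sum_add_distrib]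
    refine Finset.sum_congr rfl fun j _ => ?_
    ext x τ; simp [add_mul]
  map_smul' c e := by
    rw [RingHom.id_apply, Finset.smul_sum]
    refine Finset.sum_congr rfl fun j _ => ?_
    ext x τ; simp; ring

/-- `comb` as a sum over any finite set containing the indices of weight at most `k`. -/
theorem comb_eq_sum (k : ℤ) (e : ∀ j : GenIdx N, ModularForm 𝒮ℒ (k - j.1))
    {s : Finset (GenIdx N)} (hs : idxLe N k ⊆ s) :
    comb N k e = ∑ j ∈ s, mulLevelOne (e j) (gen j) := by
  refine Finset.sum_subset hs fun j _ hj => ?_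
  rw [mem_idxLe, not_le] at hj
  ext x τ
  simp [levelOne_eq_zero_of_neg (by lia : k - j.1 < 0) (e j)]

/-- The values of `comb`. -/
theorem comb_apply (k : ℤ) (e : ∀ j : GenIdx N, ModularForm 𝒮ℒ (k - j.1)) (x : Cosets N) (τ : ℍ) :
    comb N k e x τ = ∑ j ∈ idxLe N k, e j τ * gen j x τ := by
  show (∑ j ∈ idxLe N k, mulLevelOne (e j) (gen j)) x τ = _
  simp [Finset.sum_apply]

theorem comb_apply_of_subset (k : ℤ) (e : ∀ j : GenIdx N, ModularForm 𝒮ℒ (k - j.1))
    {s : Finset (GenIdx N)} (hs : idxLe N k ⊆ s) (x : Cosets N) (τ : ℍ) :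
    comb N k e x τ = ∑ j ∈ s, e j τ * gen j x τ := by
  rw [comb_eq_sum k e hs]
  simp [Finset.sum_apply]

/-- `comb N k e` is a form of weight `k`. -/
theorem comb_mem (k : ℤ) (e : ∀ j : GenIdx N, ModularForm 𝒮ℒ (k - j.1)) :
    comb N k e ∈ formW N k :=
  Submodule.sum_mem _ fun j _ => mulLevelOne_mem _ (gen_mem j) (by ring)

theorem idxLe_mono {k l : ℤ} (h : k ≤ l) : idxLe N k ⊆ idxLe N l := fun j hj => by
  rw [mem_idxLe] at hj ⊢; lia

theorem mulLevelOne_comb {a k : ℤ} (e₀ : ModularForm 𝒮ℒ a) (ha : 0 ≤ a) {c : ℤ} (hc : a + k = c)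
    (e : ∀ j : GenIdx N, ModularForm 𝒮ℒ (k - j.1)) :
    mulLevelOne e₀ (comb N k e) =
      comb N c (fun j => ModularForm.mcast (by lia) (e₀.mul (e j))) := by
  ext x τ
  rw [mulLevelOne_apply, comb_apply_of_subset k e (idxLe_mono (by lia : k ≤ c)), comb_apply,
    Finset.mul_sum]
  exact Finset.sum_congr rfl fun j _ => by simp [mul_assoc]

/-- The generators generate. -/
theorem exists_comb_eq {k : ℤ} {F : Vec N} (hF : F ∈ formW N k) : ∃ e, comb N k e = F := by
  suffices ∀ n : ℕ, ∀ k : ℤ, k < n → ∀ F ∈ formW N k, F ∈ LinearMap.range (comb N k) from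
    this (k.toNat + 1) k (by lia) F hF
  intro n
  induction n with
  | zero =>
    intro k hk F hF
    rw [eq_zero_of_neg hF (by simpa using hk)]
    exact zero_mem _
  | succ n ih =>
    intro k hk F hF
    have hmul : ∀ (a : ℕ) (e₀ : ModularForm 𝒮ℒ (a : ℤ)), 0 < a →
        ∀ G ∈ formW N (k - a), mulLevelOne e₀ G ∈ LinearMap.range (comb N k) := by
      intro a e₀ ha G hG
      obtain ⟨e, rfl⟩ := ih (k - a) (by lia) G hG
      exact ⟨_, (mulLevelOne_comb e₀ (by lia) (by ring : (a : ℤ) + (k - a) = k) e).symm⟩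
    have hsub : formW N k ≤ LinearMap.range (comb N k) := by
      rw [← sup_complW, decompW]
      refine sup_le (sup_le ?_ ?_) ?_
      · rintro _ ⟨G, hG, rfl⟩
        exact hmul 4 ModularForm.E₄ (by norm_num) G hG
      · rintro _ ⟨G, hG, rfl⟩
        exact hmul 6 ModularForm.E₆ (by norm_num) G hG
      · intro G hG
        have hmem : (⟨G, hG⟩ : complW N k) ∈ (⊤ : Submodule ℂ (complW N k)) := trivial
        rw [← (Module.finBasis ℂ (complW N k)).span_eq] at hmem
        have : (complW N k).subtype ⟨G, hG⟩ ∈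
            Submodule.span ℂ ((complW N k).subtype '' Set.range (Module.finBasis ℂ (complW N k))) :=
          Submodule.apply_mem_span_image_of_mem_span _ hmem
        refine Submodule.span_le.2 ?_ this
        rintro _ ⟨_, ⟨i, rfl⟩, rfl⟩
        classical
        set j₀ : GenIdx N := ⟨k, i⟩
        let e : ∀ j : GenIdx N, ModularForm 𝒮ℒ (k - j.1) := fun j =>
          if h : j = j₀ then ModularForm.mcast (by rw [h]; simp [j₀]) (ModularForm.const (1 : ℂ))
          else 0
        refine ⟨e, ?_⟩
        ext x τ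
        rw [comb_apply, Finset.sum_eq_single j₀ (fun j _ hj => by simp [e, hj])
          (fun h => absurd (mem_idxLe.2 le_rfl) h)]
        simp [e, gen, j₀]
    exact hsub hF

omit [NeZero N] in
theorem exists_div_of_E₄_E₆ {B D : Vec N} {k : ℤ} (hB : B ∈ formW N (k - 4))
    (hD : D ∈ formW N (k - 6))
    (h : ∀ x τ, ModularForm.E₄ τ * B x τ + ModularForm.E₆ τ * D x τ = 0) :
    ∃ H ∈ formW N (k - 10), (∀ x τ, B x τ = ModularForm.E₆ τ * H x τ) ∧
      ∀ x τ, D x τ = -(ModularForm.E₄ τ * H x τ) := by
  classical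
  let H : Vec N := fun x τ =>
    if ModularForm.E₄ τ = 0 then B x τ / ModularForm.E₆ τ else -D x τ / ModularForm.E₄ τ
  have hB' : ∀ x τ, B x τ = ModularForm.E₆ τ * H x τ := fun x τ => by
    by_cases h4 : ModularForm.E₄ τ = 0
    · have h6 : ModularForm.E₆ τ ≠ 0 := fun h6 => not_common_zero τ h4 h6
      simp only [H, if_pos h4]; field_simp
    · simp only [H, if_neg h4]; field_simp; linear_combination h x τ
  have hD' : ∀ x τ, D x τ = -(ModularForm.E₄ τ * H x τ) := fun x τ => by
    by_cases h4 : ModularForm.E₄ τ = 0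
    · have h6 : ModularForm.E₆ τ ≠ 0 := fun h6 => not_common_zero τ h4 h6
      have := h x τ
      rw [h4, zero_mul, zero_add, mul_eq_zero] at this
      rw [h4, zero_mul, neg_zero, this.resolve_left h6]
    · simp only [H, if_neg h4]; field_simp
  refine ⟨H, ⟨fun x => ?_, fun γ x => ?_, fun x => ?_⟩, hB', hD'⟩
  · rw [UpperHalfPlane.mdifferentiable_iff]
    intro z hz
    have hd : ∀ {f : ℍ → ℂ}, MDiff f → DifferentiableAt ℂ (f ∘ ofComplex) z := fun hf =>
      (UpperHalfPlane.mdifferentiable_iff.1 hf z hz).differentiableAt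
        (isOpen_upperHalfPlaneSet.mem_nhds hz)
    refine DifferentiableAt.differentiableWithinAt ?_
    have hE4 : MDiff (⇑ModularForm.E₄ : ℍ → ℂ) := ModularFormClass.holo _
    have hE6 : MDiff (⇑ModularForm.E₆ : ℍ → ℂ) := ModularFormClass.holo _
    by_cases h4 : ModularForm.E₄ (ofComplex z) = 0
    · have h6 : ModularForm.E₆ (ofComplex z) ≠ 0 := fun h6 => not_common_zero _ h4 h6
      have hev : ∀ᶠ w in 𝓝 z, (ModularForm.E₆ ∘ ofComplex : ℂ → ℂ) w ≠ 0 :=
        (hd hE6).continuousAt.eventually_ne h6
      refine ((hd (mdiff_of_mem hB x)).div (hd hE6) h6).congr_of_eventuallyEq ?_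
      filter_upwards [hev] with w hw
      simp only [Function.comp_apply, Pi.div_apply] at hw ⊢
      rw [hB' x (ofComplex w)]
      field_simp
    · have hev : ∀ᶠ w in 𝓝 z, (ModularForm.E₄ ∘ ofComplex : ℂ → ℂ) w ≠ 0 :=
        (hd hE4).continuousAt.eventually_ne h4
      refine ((hd (mdiff_of_mem hD x)).neg.div (hd hE4) h4).congr_of_eventuallyEq ?_
      filter_upwards [hev] with w hw
      simp only [Function.comp_apply, Pi.div_apply, Pi.neg_apply] at hw ⊢
      rw [hD' x (ofComplex w)]
      field_simp
  · ext τ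
    have h6 : ModularForm.E₆ τ * (H x ∣[k - 10] γ) τ = ModularForm.E₆ τ * H (γ⁻¹ • x) τ := by
      rw [← hB' (γ⁻¹ • x) τ, ← slash_of_mem hB γ x,
        show B x = ⇑ModularForm.E₆ * H x from funext (hB' x),
        show k - 4 = 6 + (k - 10) by ring, ModularForm.mul_slash_SL2, levelOne_slash, Pi.mul_apply]
    have h4 : ModularForm.E₄ τ * (H x ∣[k - 10] γ) τ = ModularForm.E₄ τ * H (γ⁻¹ • x) τ := by
      have hDx : D x = -(⇑ModularForm.E₄ * H x) := funext (hD' x)
      have := congrFun (slash_of_mem hD γ x) τ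
      rw [hDx, SlashAction.neg_slash, show k - 6 = 4 + (k - 10) by ring,
        ModularForm.mul_slash_SL2, levelOne_slash, Pi.neg_apply, Pi.mul_apply, hD', neg_inj] at this
      exact this
    by_cases hz : ModularForm.E₄ τ = 0
    · exact mul_left_cancel₀ (fun h6' => not_common_zero τ hz h6') h6
    · exact mul_left_cancel₀ hz h4
  · have h4 := tendsto_E (k := 4) (by norm_num) ⟨2, rfl⟩
    have hinv : (fun τ => -(ModularForm.E₄ τ)⁻¹) =O[atImInfty] fun _ => (1 : ℝ) :=
      ((h4.inv₀ one_ne_zero).neg).isBigO_one ℝ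
    refine Asymptotics.IsBigO.congr' ((bdd_of_mem hD x).mul hinv) ?_ (Eventually.of_forall
      fun _ => by simp)
    filter_upwards [h4.eventually_ne one_ne_zero] with τ hτ
    simp only [H, if_neg hτ, Pi.mul_apply]
    field_simp

/-- The generators are independent over the level-one forms. -/
theorem comb_injective {k : ℤ} {e : ∀ j : GenIdx N, ModularForm 𝒮ℒ (k - j.1)}
    (he : comb N k e = 0) (j : GenIdx N) : e j = 0 := by
  suffices ∀ n : ℕ, ∀ k : ℤ, k < n → ∀ e : (∀ j : GenIdx N, ModularForm 𝒮ℒ (k - j.1)),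
      comb N k e = 0 → ∀ j, e j = 0 from this (k.toNat + 1) k (by lia) e he j
  intro n
  induction n with
  | zero => exact fun k hk e _ j => levelOne_eq_zero_of_neg (by have := wt_nonneg j; lia) _
  | succ n ih =>
    intro k hk e he
    have hdec : ∀ j : GenIdx N, ∃ p : ModularForm 𝒮ℒ (k - j.1 - 4) × ModularForm 𝒮ℒ (k - j.1 - 6),
        j.1 ≠ k → ∀ z, e j z = ModularForm.E₄ z * p.1 z + ModularForm.E₆ z * p.2 z := fun j => by
      by_cases h : j.1 = k
      · exact ⟨0, fun h' => absurd h h'⟩
      · obtain ⟨b, d, hbd⟩ := levelOne_decomp (sub_ne_zero.2 (Ne.symm h)) (e j)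
        exact ⟨(b, d), fun _ => hbd⟩
    choose p hp using hdec
    classical
    let b : ∀ j : GenIdx N, ModularForm 𝒮ℒ (k - 4 - j.1) := fun j =>
      if j.1 = k then 0 else ModularForm.mcast (by ring) (p j).1
    let d : ∀ j : GenIdx N, ModularForm 𝒮ℒ (k - 6 - j.1) := fun j =>
      if j.1 = k then 0 else ModularForm.mcast (by ring) (p j).2
    set B := comb N (k - 4) b with hBdef
    set D := comb N (k - 6) d with hDdef
    have hBs : ∀ x τ, B x τ = ∑ j ∈ idxLe N k, b j τ * gen j x τ :=
      fun x τ => comb_apply_of_subset _ _ (idxLe_mono (by lia)) x τ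
    have hDs : ∀ x τ, D x τ = ∑ j ∈ idxLe N k, d j τ * gen j x τ :=
      fun x τ => comb_apply_of_subset _ _ (idxLe_mono (by lia)) x τ
    -- the top-weight coefficients are constants
    have hconst : ∀ j : GenIdx N, j.1 = k → ∃ c : ℂ, ∀ τ, e j τ = c := fun j hj => by
      have h0 : k - j.1 = 0 := by lia
      obtain ⟨c, hc⟩ := ModularFormClass.levelOne_weight_zero_const (ModularForm.mcast h0 (e j))
      exact ⟨c, fun τ => by simpa using congrFun hc τ⟩
    choose c hc using hconst
    let cj : GenIdx N → ℂ := fun j => if h : j.1 = k then c j h else 0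
    set C := ∑ j ∈ idxLe N k, cj j • gen j with hCdef
    have hsplit : ∀ x τ, comb N k e x τ
        = (mulLevelOne ModularForm.E₄ B + mulLevelOne ModularForm.E₆ D + C) x τ := fun x τ => by
      rw [comb_apply]
      simp only [Pi.add_apply, mulLevelOne_apply, hBs, hDs, hCdef, Finset.sum_apply,
        Pi.smul_apply, smul_eq_mul, Finset.mul_sum, ← Finset.sum_add_distrib]
      refine Finset.sum_congr rfl fun j _ => ?_
      by_cases h : j.1 = k
      · simp [b, d, cj, h, hc j h]
      · rw [hp j h τ]; simp [b, d, cj, h]; ring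
    have hCmem : C ∈ complW N k := Submodule.sum_mem _ fun j _ => by
      by_cases h : j.1 = k
      · refine Submodule.smul_mem _ _ ?_
        obtain ⟨l, i⟩ := j; subst h
        exact (Module.finBasis ℂ (complW N l) i).2
      · simp [cj, h]
    have hsum : mulLevelOne ModularForm.E₄ B + mulLevelOne ModularForm.E₆ D + C = 0 :=
      funext fun x => funext fun τ => by rw [← hsplit x τ, he]
    have hC0 : C = 0 := by
      have : C ∈ decompW N k ⊓ complW N k := ⟨by
        have : C = -(mulLevelOne ModularForm.E₄ B + mulLevelOne ModularForm.E₆ D) :=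
          eq_neg_of_add_eq_zero_right hsum
        rw [this]
        exact Submodule.neg_mem _ (Submodule.add_mem_sup ⟨B, comb_mem _ _, rfl⟩
          ⟨D, comb_mem _ _, rfl⟩), hCmem⟩
      rwa [disjoint_complW, Submodule.mem_bot] at this
    have htop : ∀ j : GenIdx N, j.1 = k → e j = 0 := by
      rintro ⟨l, i⟩ (rfl : l = k)
      have hli := (Module.finBasis ℂ (complW N l)).linearIndependent
      rw [Fintype.linearIndependent_iff] at hli
      have h0 : cj ⟨l, i⟩ = 0 := by
        refine hli (fun i => cj ⟨l, i⟩) (Subtype.ext ?_) i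
        rw [Submodule.coe_sum, Submodule.coe_zero, ← hC0, hCdef, idxLe, Finset.sum_sigma,
          Finset.sum_eq_single l]
        · rfl
        · exact fun m _ hm => Finset.sum_eq_zero fun i _ => by simp [cj, hm]
        · intro h
          exact absurd (Finset.mem_Icc.2 ⟨wt_nonneg ⟨l, i⟩, le_rfl⟩) h
      ext τ
      simp only [cj, dite_true] at h0
      simp [hc ⟨l, i⟩ rfl τ, h0]
    have hBD : ∀ x τ, ModularForm.E₄ τ * B x τ + ModularForm.E₆ τ * D x τ = 0 := fun x τ => by
      have := congrFun (congrFun hsum x) τ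
      rw [hC0, add_zero] at this
      exact this
    obtain ⟨H, hH, hBH, hDH⟩ := exists_div_of_E₄_E₆ (comb_mem _ b) (comb_mem _ d) hBD
    obtain ⟨f, rfl⟩ := exists_comb_eq hH
    let u : ∀ j : GenIdx N, ModularForm 𝒮ℒ (k - 4 - j.1) :=
      fun j => b j - ModularForm.mcast (by ring) (ModularForm.E₆.mul (f j))
    let v : ∀ j : GenIdx N, ModularForm 𝒮ℒ (k - 6 - j.1) :=
      fun j => d j + ModularForm.mcast (by ring) (ModularForm.E₄.mul (f j))
    have hu : comb N (k - 4) u = 0 := funext fun x => funext fun τ => by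
      have h1 : B x τ - ModularForm.E₆ τ * comb N (k - 10) f x τ = 0 := by
        rw [hBdef]; exact sub_eq_zero.2 (hBH x τ)
      rw [Pi.zero_apply, Pi.zero_apply, ← h1, hBdef,
        comb_apply_of_subset (k - 10) f (idxLe_mono (by lia : k - 10 ≤ k - 4)), comb_apply,
        comb_apply, Finset.mul_sum, ← Finset.sum_sub_distrib]
      exact Finset.sum_congr rfl fun j _ => by simp [u]; ring
    have hv : comb N (k - 6) v = 0 := funext fun x => funext fun τ => by
      have h1 : D x τ + ModularForm.E₄ τ * comb N (k - 10) f x τ = 0 := by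
        rw [hDdef, hDH x τ]; ring
      rw [Pi.zero_apply, Pi.zero_apply, ← h1, hDdef,
        comb_apply_of_subset (k - 10) f (idxLe_mono (by lia : k - 10 ≤ k - 6)), comb_apply,
        comb_apply, Finset.mul_sum, ← Finset.sum_add_distrib]
      exact Finset.sum_congr rfl fun j _ => by simp [v]; ring
    intro j
    by_cases h : j.1 = k
    · exact htop j h
    · ext τ
      have hu' := DFunLike.congr_fun (ih (k - 4) (by lia) u hu j) τ
      have hv' := DFunLike.congr_fun (ih (k - 6) (by lia) v hv j) τ
      simp [u, v, b, d, h] at hu' hv'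
      simp only [zero_apply]
      rw [hp j h τ]
      linear_combination ModularForm.E₄ τ * hu' + ModularForm.E₆ τ * hv'

end Fermat.Agent.DimFormula
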