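import Fermat.Agent.DimFormula.Generators

/-!
# The free generators

There are exactly `index Γ₀(N)` generators, their values are a basis at every point, and their
jets span.
-/

set_option autoImplicit false

noncomputable section

open UpperHalfPlane hiding I
open CongruenceSubgroup Fermat.Agent.EichlerShimura Filter Topology
open scoped MatrixGroups ModularForm Manifold

namespace Fermat.Agent.DimFormula

variable {N : ℕ} [NeZero N]

/-- `r(a) = dim M_a(SL₂ℤ)`. -/
def levelOneDim (a : ℤ) : ℕ := Module.finrank ℂ (ModularForm 𝒮ℒ a)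

/-- `levelOneDim` vanishes in negative weight. -/
theorem levelOneDim_of_neg {a : ℤ} (ha : a < 0) : levelOneDim a = 0 := finrank_levelOne_neg ha

/-- `levelOneDim` in even weight. -/
theorem levelOneDim_eq {a : ℕ} (ha : Even a) :
    levelOneDim (a : ℤ) = if a ≡ 2 [MOD 12] then a / 12 else a / 12 + 1 :=
  finrank_levelOne ha

theorem levelOneDim_bound {a : ℤ} (ha : Even a) (h0 : 0 ≤ a) : a / 12 ≤ levelOneDim a := by
  obtain ⟨n, rfl⟩ : ∃ n : ℕ, (n : ℤ) = a := ⟨a.toNat, by lia⟩
  rw [levelOneDim_eq (by exact_mod_cast ha)]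
  split_ifs <;> push_cast <;> lia

theorem levelOneDim_add_twelve {a : ℤ} (ha : Even a) (h0 : 0 ≤ a) :
    levelOneDim (a + 12) = levelOneDim a + 1 := by
  obtain ⟨n, rfl⟩ : ∃ n : ℕ, (n : ℤ) = a := ⟨a.toNat, by lia⟩
  have hn : Even n := by exact_mod_cast ha
  rw [show (n : ℤ) + 12 = ((n + 12 : ℕ) : ℤ) by push_cast; ring,
    levelOneDim_eq (hn.add (by decide)), levelOneDim_eq hn]
  unfold Nat.ModEq
  split_ifs <;> lia

/-- Restriction of `comb` to a finite set of generators. -/
def combOn (s : Finset (GenIdx N)) (K : ℤ) :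
    (∀ j : s, ModularForm 𝒮ℒ (K - j.1.1)) →ₗ[ℂ] formW N K where
  toFun e := ⟨∑ j, mulLevelOne (e j) (gen j.1), Submodule.sum_mem _ fun j _ =>
    mulLevelOne_mem _ (gen_mem j.1) (by ring)⟩
  map_add' e f := by
    ext x τ
    simp [Finset.sum_apply, add_mul, Finset.sum_add_distrib]
  map_smul' c e := by
    ext x τ
    simp [Finset.sum_apply, Finset.mul_sum, mul_assoc]

theorem combOn_injective (s : Finset (GenIdx N)) (K : ℤ) : Function.Injective (combOn s K) := by
  classical
  rw [injective_iff_map_eq_zero]
  intro e he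
  let e' : ∀ j : GenIdx N, ModularForm 𝒮ℒ (K - j.1) := fun j => if h : j ∈ s then e ⟨j, h⟩ else 0
  have h0 : comb N K e' = 0 := by
    have h1 : (combOn s K e).1 = ∑ j ∈ idxLe N K ∪ s, mulLevelOne (e' j) (gen j) := by
      rw [← Finset.sum_subset (Finset.subset_union_right (s₁ := idxLe N K)),
          ← Finset.sum_coe_sort s]
      · exact Finset.sum_congr rfl fun j _ => by simp [e']
      · intro j _ hj
        ext x τ
        simp [e', hj]
    rw [comb_eq_sum K e' Finset.subset_union_left, ← h1, he]
    rfl
  funext j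
  simpa [e', j.2] using comb_injective h0 j.1

theorem sum_levelOneDim_le (s : Finset (GenIdx N)) (K : ℤ) :
    ∑ j ∈ s, levelOneDim (K - j.1) ≤ Module.finrank ℂ (formW N K) := by
  have : ∀ j : GenIdx N, FiniteDimensional ℂ (ModularForm 𝒮ℒ (K - j.1)) := fun _ => inferInstance
  have := LinearMap.finrank_le_finrank_of_injective (combOn_injective s K)
  rw [Module.finrank_pi_fintype] at this
  rwa [← Finset.sum_coe_sort s]

theorem finrank_formW_twelve_mul_le (M : ℕ) :
    Module.finrank ℂ (formW N (12 * (M : ℤ))) ≤ (M + 1) * Nat.card (Cosets N) := by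
  induction M with
  | zero =>
    have h := finrank_formW_le (N := N) 0
    have : formW N (0 - 12) = ⊥ := (Submodule.eq_bot_iff _).2 fun F hF =>
        eq_zero_of_neg hF (by norm_num)
    rw [this, finrank_bot] at h
    simpa using h
  | succ M ih =>
    have h := finrank_formW_le (N := N) (12 * ((M + 1 : ℕ) : ℤ))
    rw [show 12 * ((M + 1 : ℕ) : ℤ) - 12 = 12 * (M : ℤ) by push_cast; ring] at h
    rw [add_one_mul (M + 1)]
    lia

theorem card_le_index (s : Finset (GenIdx N)) : s.card ≤ Nat.card (Cosets N) := by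
  by_contra hlt
  rw [not_le] at hlt
  set L : ℕ := s.sup fun j => j.1.toNat with hL
  set d := Nat.card (Cosets N)
  set M : ℕ := (d + 1) * L + d + 1 with hM
  have hML : L ≤ M := le_add_of_le_of_nonneg (le_add_of_le_of_nonneg
    (Nat.le_mul_of_pos_left L (Nat.succ_pos d)) (Nat.zero_le _)) (Nat.zero_le _)
  have hterm : ∀ j ∈ s, (M - L : ℕ) ≤ levelOneDim (12 * (M : ℤ) - j.1) := fun j hj => by
    have hjL : j.1.toNat ≤ L := Finset.le_sup (f := fun j => j.1.toNat) hj
    have h0 := wt_nonneg j
    have := levelOneDim_bound (a := 12 * (M : ℤ) - j.1)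
        ((Even.mul_right (by decide) _).sub (wt_even j))
      (by lia)
    lia
  have h1 := Finset.card_nsmul_le_sum s _ _ hterm
  rw [smul_eq_mul] at h1
  have h2 := (h1.trans (sum_levelOneDim_le s (12 * (M : ℤ)))).trans (finrank_formW_twelve_mul_le M)
  have h3 : (d + 1) * (M - L) ≤ (M + 1) * d := le_trans (Nat.mul_le_mul_right _ hlt) h2
  rw [Nat.mul_sub] at h3
  nlinarith [Nat.sub_add_cancel (Nat.mul_le_mul_left (d + 1) hML)]

instance finite_genIdx : Finite (GenIdx N) := by
  by_contra h
  have := not_finite_iff_infinite.1 h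
  obtain ⟨s, hs⟩ := Infinite.exists_subset_card_eq (GenIdx N) (Nat.card (Cosets N) + 1)
  have := card_le_index s
  lia

instance fintype_genIdx : Fintype (GenIdx N) := Fintype.ofFinite _

/-- At every point the values of the generators span. -/
theorem span_gen_values (z : ℍ) :
    Submodule.span ℂ (Set.range fun (j : GenIdx N) (x : Cosets N) => gen j x z) = ⊤ := by
  rw [eq_top_iff, ← span_values_eq_top N z, Submodule.span_le]
  rintro _ ⟨k, F, hF, rfl⟩
  obtain ⟨e, rfl⟩ := exists_comb_eq hF
  have : (fun x => comb N k e x z) = ∑ j ∈ idxLe N k, e j z • fun x => gen j x z := by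
    funext x
    simp [comb_apply, Finset.sum_apply]
  rw [this]
  exact Submodule.sum_mem _ fun j _ => Submodule.smul_mem _ _ (Submodule.subset_span ⟨j, rfl⟩)

/-- There are exactly `index Γ₀(N)` generators. -/
theorem card_genIdx : Fintype.card (GenIdx N) = Nat.card (Cosets N) := by
  have : Fintype (Cosets N) := Fintype.ofFinite _
  refine le_antisymm (card_le_index Finset.univ) ?_
  have := finrank_range_le_card (R := ℂ)
    (fun (j : GenIdx N) (x : Cosets N) => gen j x UpperHalfPlane.I)
  rw [Set.finrank, span_gen_values, finrank_top, Module.finrank_pi] at this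
  rwa [Nat.card_eq_fintype_card]

/-- At every point the values of the generators are linearly independent. -/
theorem linearIndependent_gen_values (z : ℍ) :
    LinearIndependent ℂ fun (j : GenIdx N) (x : Cosets N) => gen j x z := by
  have : Fintype (Cosets N) := Fintype.ofFinite _
  exact linearIndependent_of_top_le_span_of_card_eq_finrank (span_gen_values z).ge
    (by rw [card_genIdx, Module.finrank_pi, Nat.card_eq_fintype_card])

variable (N) in
/-- The free-module isomorphism in each weight. -/
def combEquiv (k : ℤ) : (∀ j : GenIdx N, ModularForm 𝒮ℒ (k - j.1)) ≃ₗ[ℂ] formW N k :=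
  LinearEquiv.ofBijective ((comb N k).codRestrict _ (comb_mem k))
    ⟨(injective_iff_map_eq_zero _).2 fun _ he => funext fun j =>
        comb_injective (congrArg Subtype.val he) j,
      fun F => (exists_comb_eq F.2).imp fun _ he => Subtype.ext he⟩

/-- The dimension of the forms of weight `k` from the weights of the generators. -/
theorem finrank_formW (k : ℤ) :
    Module.finrank ℂ (formW N k) = ∑ j : GenIdx N, levelOneDim (k - j.1) := by
  have : ∀ j : GenIdx N, FiniteDimensional ℂ (ModularForm 𝒮ℒ (k - j.1)) := fun _ => inferInstance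
  rw [← (combEquiv N k).finrank_eq, Module.finrank_pi_fintype]
  rfl

theorem range_jet_le (k : ℤ) : LinearMap.range (jetₗ N k) ≤
    Submodule.span ℂ (Set.range fun j : GenIdx N => jet N (gen j)) := by
  rintro _ ⟨F, rfl⟩
  obtain ⟨e, he⟩ := exists_comb_eq F.2
  have hF : F = ∑ j ∈ idxLe N k,
      (⟨mulLevelOne (e j) (gen j), mulLevelOne_mem _ (gen_mem j) (by ring)⟩ : formW N k) := by
    refine Subtype.ext ?_
    rw [← he, Submodule.coe_sum]
    rfl
  rw [hF, map_sum]
  refine Submodule.sum_mem _ fun j _ => ?_
  rw [jetₗ_apply, jet_mulLevelOne _ (gen_mem j)]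
  exact Submodule.smul_mem _ _ (Submodule.subset_span ⟨j, rfl⟩)

/-- The jets of the generators span. -/
theorem span_jet_gen : Submodule.span ℂ (Set.range fun j : GenIdx N => jet N (gen j)) = ⊤ := by
  have : Fintype (Cosets N) := Fintype.ofFinite _
  set L : ℕ := (Finset.univ : Finset (GenIdx N)).sup fun j => j.1.toNat with hL
  set K : ℤ := 2 * (L : ℤ) + 12 with hK
  refine top_le_iff.1 (le_trans ?_ (range_jet_le K))
  refine (Submodule.eq_top_of_finrank_eq (le_antisymm (Submodule.finrank_le _) ?_)).ge
  rw [Module.finrank_pi, ← Nat.card_eq_fintype_card, ← card_genIdx]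
  let div : LinearMap.ker (jetₗ N K) →ₗ[ℂ] formW N (K - 12) :=
    { toFun := fun F => ⟨fun x τ => F.1.1 x τ / ModularForm.discriminant τ,
        div_discriminant_mem F.1.2 F.2⟩
      map_add' := fun F G => by ext x τ; simp [add_div]
      map_smul' := fun c F => by ext x τ; simp [mul_div_assoc] }
  have hdiv : Function.Injective div := fun F G h => by
    refine Subtype.ext (Subtype.ext (funext fun x => funext fun τ => ?_))
    have := congrFun (congrFun (congrArg Subtype.val h) x) τ
    exact (div_left_inj' (ModularForm.discriminant_ne_zero τ)).1 this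
  have h1 := (jetₗ N K).finrank_range_add_finrank_ker
  have h2 := LinearMap.finrank_le_finrank_of_injective hdiv
  rw [finrank_formW] at h1 h2
  have h3 : ∀ j : GenIdx N, levelOneDim (K - j.1) = levelOneDim (K - 12 - j.1) + 1 := fun j => by
    have hjL : j.1.toNat ≤ L :=
      Finset.le_sup (f := fun j : GenIdx N => j.1.toNat) (Finset.mem_univ j)
    have := wt_nonneg j
    rw [← levelOneDim_add_twelve (a := K - 12 - j.1)
      (by rw [hK, show 2 * (L : ℤ) + 12 - 12 - j.1 = 2 * (L : ℤ) - j.1 by ring]
          exact (even_two_mul _).sub (wt_even j)) (by lia)]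
    congr 1
    ring
  rw [Finset.sum_congr rfl fun j _ => h3 j, Finset.sum_add_distrib] at h1
  simp only [Finset.sum_const, Finset.card_univ, smul_eq_mul, mul_one] at h1
  lia

end Fermat.Agent.DimFormula
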